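import Mathlib

/-!
# The ring of 1-periodic holomorphic functions on the upper half plane bounded at infinity

`IsQ f` says that `f` has a `q`-expansion in nonnegative powers of `q`.  This class is closed
under the ring operations, and the `q`-expansion is injective and multiplicative on it.
-/

noncomputable section

set_option autoImplicit false

namespace Fermat.Agent.MFCore

open UpperHalfPlane Complex Filter Topology Function
open scoped Manifold MatrixGroups ModularForm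

/-- 1-periodic, holomorphic and bounded at `i∞`. -/
structure IsQ (f : ℍ → ℂ) : Prop where
  periodic : Periodic (f ∘ UpperHalfPlane.ofComplex) 1
  holo : MDiff f
  bdd : IsBoundedAtImInfty f

/-- The `q`-expansion with parameter of width one. -/
abbrev qExp (f : ℍ → ℂ) : PowerSeries ℂ := qExpansion 1 f

lemma IsQ.analyticAt {f : ℍ → ℂ} (hf : IsQ f) : AnalyticAt ℂ (cuspFunction 1 f) 0 :=
  analyticAt_cuspFunction_zero one_pos (by simpa using hf.periodic) hf.holo hf.bdd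

lemma periodic_one_of_vadd {f : ℍ → ℂ} (h : ∀ τ : ℍ, f ((1 : ℝ) +ᵥ τ) = f τ) :
    Periodic (f ∘ UpperHalfPlane.ofComplex) 1 := by
  intro w
  by_cases hw : 0 < w.im
  · have : 0 < (w + 1).im := by simp [hw]
    simp only [comp_apply, ofComplex_apply_of_im_pos this, ofComplex_apply_of_im_pos hw]
    rw [← h ⟨w, hw⟩]
    congr 1
    ext
    simp [add_comm]
  · simp only [not_lt] at hw
    have : (w + 1).im ≤ 0 := by simpa using hw
    simp [ofComplex_apply_of_im_nonpos this, ofComplex_apply_of_im_nonpos hw]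

lemma isQ_const (c : ℂ) : IsQ (fun _ => c) :=
  ⟨fun _ => rfl, mdifferentiable_const, atImInfty.const_boundedAtFilter c⟩

lemma isQ_zero : IsQ (0 : ℍ → ℂ) := isQ_const 0

lemma isQ_one : IsQ (1 : ℍ → ℂ) := isQ_const 1

lemma IsQ.add {f g : ℍ → ℂ} (hf : IsQ f) (hg : IsQ g) : IsQ (f + g) :=
  ⟨fun w => by
      have h1 := hf.periodic w
      have h2 := hg.periodic w
      simp only [comp_apply, Pi.add_apply] at h1 h2 ⊢
      rw [h1, h2],
    hf.holo.add hg.holo, hf.bdd.add hg.bdd⟩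

lemma IsQ.mul {f g : ℍ → ℂ} (hf : IsQ f) (hg : IsQ g) : IsQ (f * g) :=
  ⟨fun w => by
      have h1 := hf.periodic w
      have h2 := hg.periodic w
      simp only [comp_apply, Pi.mul_apply] at h1 h2 ⊢
      rw [h1, h2],
    hf.holo.mul hg.holo, hf.bdd.mul hg.bdd⟩

lemma IsQ.neg {f : ℍ → ℂ} (hf : IsQ f) : IsQ (-f) :=
  ⟨fun w => by
      have h1 := hf.periodic w
      simp only [comp_apply, Pi.neg_apply] at h1 ⊢
      rw [h1],
    hf.holo.neg, hf.bdd.neg_left⟩

lemma IsQ.sub {f g : ℍ → ℂ} (hf : IsQ f) (hg : IsQ g) : IsQ (f - g) := by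
  rw [sub_eq_add_neg]; exact hf.add hg.neg

lemma IsQ.smul {f : ℍ → ℂ} (hf : IsQ f) (c : ℂ) : IsQ (c • f) := (isQ_const c).mul hf

lemma IsQ.pow {f : ℍ → ℂ} (hf : IsQ f) (n : ℕ) : IsQ (f ^ n) := by
  induction n with
  | zero => simpa using isQ_one
  | succ n ih => rw [pow_succ]; exact ih.mul hf

lemma isQ_sum {ι : Type*} (s : Finset ι) {f : ι → ℍ → ℂ} (hf : ∀ i ∈ s, IsQ (f i)) :
    IsQ (∑ i ∈ s, f i) :=
  Finset.sum_induction f IsQ (fun _ _ h h' => h.add h') isQ_zero hf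

lemma qExp_mul {f g : ℍ → ℂ} (hf : IsQ f) (hg : IsQ g) : qExp (f * g) = qExp f * qExp g :=
  qExpansion_mul hf.analyticAt hg.analyticAt

lemma qExp_add {f g : ℍ → ℂ} (hf : IsQ f) (hg : IsQ g) : qExp (f + g) = qExp f + qExp g :=
  qExpansion_add hf.analyticAt hg.analyticAt

lemma qExp_sub {f g : ℍ → ℂ} (hf : IsQ f) (hg : IsQ g) : qExp (f - g) = qExp f - qExp g :=
  qExpansion_sub hf.analyticAt hg.analyticAt

lemma qExp_neg {f : ℍ → ℂ} (hf : IsQ f) : qExp (-f) = -qExp f :=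
  qExpansion_neg hf.analyticAt

lemma qExp_smul {f : ℍ → ℂ} (hf : IsQ f) (c : ℂ) : qExp (c • f) = c • qExp f :=
  qExpansion_smul hf.analyticAt c

lemma qExp_one : qExp (1 : ℍ → ℂ) = 1 := qExpansion_one 1

lemma qExp_zero : qExp (0 : ℍ → ℂ) = 0 := qExpansion_zero 1

lemma qExp_pow {f : ℍ → ℂ} (hf : IsQ f) (n : ℕ) : qExp (f ^ n) = qExp f ^ n := by
  induction n with
  | zero => simp [qExp_one]
  | succ n ih => rw [pow_succ, pow_succ, qExp_mul (hf.pow n) hf, ih]

lemma qExp_sum {ι : Type*} (s : Finset ι) {f : ι → ℍ → ℂ} (hf : ∀ i ∈ s, IsQ (f i)) :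
    qExp (∑ i ∈ s, f i) = ∑ i ∈ s, qExp (f i) := by
  induction s using Finset.cons_induction with
  | empty => simp [qExp_zero]
  | cons a s ha ih =>
    rw [Finset.sum_cons, Finset.sum_cons, qExp_add (hf a (Finset.mem_cons_self a s))
      (isQ_sum s fun i hi => hf i (Finset.mem_cons_of_mem hi)),
      ih fun i hi => hf i (Finset.mem_cons_of_mem hi)]

lemma qExp_eq_zero_iff {f : ℍ → ℂ} (hf : IsQ f) : qExp f = 0 ↔ f = 0 :=
  qExpansion_eq_zero_iff one_pos (by simpa using hf.periodic) hf.holo hf.bdd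

lemma qExp_inj {f g : ℍ → ℂ} (hf : IsQ f) (hg : IsQ g) (h : qExp f = qExp g) : f = g := by
  rw [← sub_eq_zero, ← qExp_eq_zero_iff (hf.sub hg), qExp_sub hf hg, h, sub_self]

/-- `g` is obtained from `f` by applying `σ` to the `q`-coefficients. -/
def Twist (σ : ℂ →+* ℂ) (f g : ℍ → ℂ) : Prop :=
  IsQ f ∧ IsQ g ∧ qExp g = PowerSeries.map σ (qExp f)

namespace Twist

variable {σ : ℂ →+* ℂ} {f g f' g' : ℍ → ℂ}

lemma isQ_left (h : Twist σ f g) : IsQ f := h.1

lemma isQ_right (h : Twist σ f g) : IsQ g := h.2.1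

lemma qExp_eq (h : Twist σ f g) : qExp g = PowerSeries.map σ (qExp f) := h.2.2

lemma zero : Twist σ (0 : ℍ → ℂ) 0 := ⟨isQ_zero, isQ_zero, by simp [qExp_zero]⟩

lemma one : Twist σ (1 : ℍ → ℂ) 1 := ⟨isQ_one, isQ_one, by simp [qExp_one]⟩

lemma add (h : Twist σ f g) (h' : Twist σ f' g') : Twist σ (f + f') (g + g') :=
  ⟨h.1.add h'.1, h.2.1.add h'.2.1, by rw [qExp_add h.2.1 h'.2.1, qExp_add h.1 h'.1, map_add,
    h.2.2, h'.2.2]⟩

lemma neg (h : Twist σ f g) : Twist σ (-f) (-g) :=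
  ⟨h.1.neg, h.2.1.neg, by rw [qExp_neg h.2.1, qExp_neg h.1, map_neg, h.2.2]⟩

lemma mul (h : Twist σ f g) (h' : Twist σ f' g') : Twist σ (f * f') (g * g') :=
  ⟨h.1.mul h'.1, h.2.1.mul h'.2.1, by rw [qExp_mul h.2.1 h'.2.1, qExp_mul h.1 h'.1, map_mul,
    h.2.2, h'.2.2]⟩

lemma pow (h : Twist σ f g) (n : ℕ) : Twist σ (f ^ n) (g ^ n) := by
  induction n with
  | zero => simpa using one (σ := σ)
  | succ n ih => simpa [pow_succ] using ih.mul h

lemma smul (h : Twist σ f g) (c : ℂ) : Twist σ (c • f) (σ c • g) :=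
  ⟨h.1.smul c, h.2.1.smul _, by
    ext n
    rw [qExp_smul h.2.1, qExp_smul h.1, h.2.2]
    simp⟩

lemma sum {ι : Type*} (s : Finset ι) {F G : ι → ℍ → ℂ} (h : ∀ i ∈ s, Twist σ (F i) (G i)) :
    Twist σ (∑ i ∈ s, F i) (∑ i ∈ s, G i) := by
  induction s using Finset.cons_induction with
  | empty => simpa using zero (σ := σ)
  | cons a s ha ih =>
    rw [Finset.sum_cons, Finset.sum_cons]
    exact (h a (Finset.mem_cons_self a s)).add (ih fun i hi => h i (Finset.mem_cons_of_mem hi))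

lemma right_unique (h : Twist σ f g) (h' : Twist σ f g') : g = g' :=
  qExp_inj h.2.1 h'.2.1 (h.2.2.trans h'.2.2.symm)

lemma left_eq_zero_iff (h : Twist σ f g) : f = 0 ↔ g = 0 := by
  rw [← qExp_eq_zero_iff h.1, ← qExp_eq_zero_iff h.2.1, h.2.2]
  exact ((map_eq_zero_iff _ (PowerSeries.map_injective σ σ.injective))).symm

end Twist

end Fermat.Agent.MFCore
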