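import Mathlib
import Fermat.Agent.MFCore.QRing

/-!
# Unbundled modular forms on `Γ₀(N)` and conversions
-/

noncomputable section

set_option autoImplicit false

namespace Fermat.Agent.MFCore

open UpperHalfPlane Complex Filter Topology Function CongruenceSubgroup
open scoped Manifold MatrixGroups ModularForm

/-- Holomorphic of weight `k`, invariant under the full modular group, bounded at infinity. -/
structure IsLevelOne (k : ℤ) (f : ℍ → ℂ) : Prop where
  holo : MDiff f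
  slash : ∀ γ : SL(2, ℤ), f ∣[k] γ = f
  bdd : IsBoundedAtImInfty f

/-- Holomorphic of weight `k` on `Γ₀(N)`, bounded at every cusp. -/
structure IsForm (N : ℕ) (k : ℤ) (f : ℍ → ℂ) : Prop where
  holo : MDiff f
  slash : ∀ γ ∈ Gamma0 N, f ∣[k] γ = f
  bdd : ∀ γ : SL(2, ℤ), IsBoundedAtImInfty (f ∣[k] γ)

lemma T_mem_Gamma0 (N : ℕ) : ModularGroup.T ∈ Gamma0 N := by
  simp [Gamma0_mem, ModularGroup.T]

lemma vadd_one_eq_T_smul (τ : ℍ) : (1 : ℝ) +ᵥ τ = ModularGroup.T • τ := by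
  simpa using (modular_T_zpow_smul τ 1).symm

lemma periodic_of_slash_T {k : ℤ} {f : ℍ → ℂ} (h : f ∣[k] ModularGroup.T = f) :
    Periodic (f ∘ UpperHalfPlane.ofComplex) 1 := by
  refine periodic_one_of_vadd fun τ => ?_
  rw [vadd_one_eq_T_smul]
  conv_rhs => rw [← h]
  rw [ModularForm.SL_slash_apply]
  simp [denom, ModularGroup.T]

lemma IsLevelOne.isQ {k : ℤ} {f : ℍ → ℂ} (h : IsLevelOne k f) : IsQ f :=
  ⟨periodic_of_slash_T (h.slash _), h.holo, h.bdd⟩

lemma IsForm.isQ {N : ℕ} {k : ℤ} {f : ℍ → ℂ} (h : IsForm N k f) : IsQ f :=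
  ⟨periodic_of_slash_T (h.slash _ (T_mem_Gamma0 N)), h.holo, by simpa using h.bdd 1⟩

lemma IsLevelOne.isForm {k : ℤ} {f : ℍ → ℂ} (h : IsLevelOne k f) (N : ℕ) : IsForm N k f :=
  ⟨h.holo, fun γ _ => h.slash γ, fun γ => by rw [h.slash γ]; exact h.bdd⟩

lemma mdiff_slash_SL {k : ℤ} {f : ℍ → ℂ} (hf : MDiff f) (γ : SL(2, ℤ)) : MDiff (f ∣[k] γ) := by
  rw [ModularForm.SL_slash]
  exact MDifferentiable.slash hf k _

/-- Bundle a level-one form. -/
def IsLevelOne.toModularForm {k : ℤ} {f : ℍ → ℂ} (h : IsLevelOne k f) : ModularForm 𝒮ℒ k where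
  toFun := f
  slash_action_eq' := by
    rintro _ ⟨γ, rfl⟩
    exact h.slash γ
  holo' := h.holo
  bdd_at_cusps' {c} hc := by
    rw [OnePoint.isBoundedAt_iff_forall_SL2Z hc]
    intro γ _
    rw [h.slash γ]
    exact h.bdd

@[simp] lemma IsLevelOne.coe_toModularForm {k : ℤ} {f : ℍ → ℂ} (h : IsLevelOne k f) :
    ⇑h.toModularForm = f := rfl

lemma isLevelOne_modularForm {k : ℤ} (f : ModularForm 𝒮ℒ k) : IsLevelOne k f where
  holo := ModularFormClass.holo f
  slash γ := SlashInvariantFormClass.slash_action_eq f _ ⟨γ, rfl⟩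
  bdd := ModularFormClass.bdd_at_infty f

variable {N : ℕ} [NeZero N] {k : ℤ}

lemma isForm_cuspForm (f : CuspForm (Gamma0 N) k) : IsForm N k f where
  holo := CuspFormClass.holo f
  slash γ hγ := SlashInvariantFormClass.slash_action_eq f _ ⟨γ, hγ, rfl⟩
  bdd γ := ModularFormClass.bdd_at_infty_slash f γ

lemma zeroAtImInfty_cuspForm (f : CuspForm (Gamma0 N) k) (γ : SL(2, ℤ)) :
    IsZeroAtImInfty ((f : ℍ → ℂ) ∣[k] γ) :=
  CuspFormClass.zero_at_infty_slash f γ

/-- Bundle a form on `Γ₀(N)`. -/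
def IsForm.toModularForm {f : ℍ → ℂ} (h : IsForm N k f) : ModularForm (Gamma0 N) k where
  toFun := f
  slash_action_eq' := by
    rintro _ ⟨γ, hγ, rfl⟩
    exact h.slash γ hγ
  holo' := h.holo
  bdd_at_cusps' {c} hc := by
    rw [Subgroup.IsArithmetic.isCusp_iff_isCusp_SL2Z] at hc
    rw [OnePoint.isBoundedAt_iff_forall_SL2Z hc]
    exact fun γ _ => h.bdd γ

/-- Bundle a cusp form on `Γ₀(N)`. -/
def IsForm.toCuspForm {f : ℍ → ℂ} (h : IsForm N k f)
    (h0 : ∀ γ : SL(2, ℤ), IsZeroAtImInfty (f ∣[k] γ)) : CuspForm (Gamma0 N) k where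
  toFun := f
  slash_action_eq' := by
    rintro _ ⟨γ, hγ, rfl⟩
    exact h.slash γ hγ
  holo' := h.holo
  zero_at_cusps' {c} hc := by
    rw [Subgroup.IsArithmetic.isCusp_iff_isCusp_SL2Z] at hc
    rw [OnePoint.isZeroAt_iff_forall_SL2Z hc]
    exact fun γ _ => h0 γ

end Fermat.Agent.MFCore
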