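import Mathlib
import Fermat.Agent.MFCore.Forms

/-!
# Conjugates of a form on `Γ₀(N)` and their symmetric functions

For `f` invariant under `Γ₀(N)` in weight `k`, `conj k f q` (`q` a left coset of `Γ₀(N)`) are its
conjugates.  The elementary symmetric functions of the conjugates and the Lagrange interpolation
coefficients are forms of level one.
-/

noncomputable section

set_option autoImplicit false

namespace Fermat.Agent.MFCore

open UpperHalfPlane Complex Filter Topology Function CongruenceSubgroup Finset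
open scoped Manifold MatrixGroups ModularForm

section Algebra

variable {R : Type*} [CommRing R] {ι : Type*}

/-- Elementary symmetric function of degree `m`. -/
def esymm (s : Finset ι) (G : ι → R) (m : ℕ) : R :=
  ∑ t ∈ s.powersetCard m, ∏ i ∈ t, G i

@[simp] lemma esymm_zero (s : Finset ι) (G : ι → R) : esymm s G 0 = 1 := by
  simp [esymm, powersetCard_zero]

lemma esymm_map {κ : Type*} (e : ι ↪ κ) (s : Finset ι) (G : κ → R) (m : ℕ) :
    esymm (s.map e) G m = esymm s (G ∘ e) m := by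
  simp [esymm, powersetCard_map, Finset.sum_map, Finset.prod_map, mapEmbedding_apply]

lemma prod_sub_eq_sum [DecidableEq ι] (s : Finset ι) (G : ι → R) (x : R) :
    ∏ i ∈ s, (x - G i) =
      ∑ m ∈ Finset.range (s.card + 1), (-1) ^ m * esymm s G m * x ^ (s.card - m) := by
  rw [Finset.prod_sub, Finset.sum_powerset]
  refine Finset.sum_congr rfl fun m _ => ?_
  rw [esymm, Finset.mul_sum, Finset.sum_mul]
  refine Finset.sum_congr rfl fun t ht => ?_
  obtain ⟨ht1, ht2⟩ := Finset.mem_powersetCard.1 ht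
  rw [Finset.prod_const, Finset.card_sdiff_of_subset ht1, ht2]
  ring

variable [Fintype ι] [DecidableEq ι]

/-- Coefficient of `(-1)^m X^(card - 1 - m)` of the interpolation polynomial. -/
def interpCoeff (F G : ι → R) (m : ℕ) : R :=
  ∑ q, F q * esymm (univ.erase q) G m

/-- The evaluation of the interpolation polynomial at a node. -/
theorem interp_eval (F G : ι → R) (q₀ : ι) :
    ∑ m ∈ Finset.range (Fintype.card ι),
        (-1) ^ m * interpCoeff F G m * G q₀ ^ (Fintype.card ι - 1 - m)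
      = F q₀ * ∏ q ∈ univ.erase q₀, (G q₀ - G q) := by
  have hc : ∀ q : ι, (univ.erase q).card + 1 = Fintype.card ι := fun q => by
    rw [Finset.card_erase_add_one (mem_univ q), Finset.card_univ]
  trans ∑ q, F q * ∏ r ∈ univ.erase q, (G q₀ - G r)
  · simp only [interpCoeff, Finset.mul_sum, Finset.sum_mul]
    rw [Finset.sum_comm]
    refine Finset.sum_congr rfl fun q _ => ?_
    rw [prod_sub_eq_sum, hc, Finset.mul_sum]
    refine Finset.sum_congr rfl fun m _ => ?_
    rw [show (univ.erase q).card = Fintype.card ι - 1 by have := hc q; omega]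
    ring
  · rw [Finset.sum_eq_single q₀]
    · intro q _ hq
      rw [Finset.prod_eq_zero (i := q₀) (by simp [hq.symm]) (sub_self _), mul_zero]
    · simp

/-- A node is a root of the polynomial with the elementary symmetric coefficients. -/
theorem esymm_eval (F : ι → R) (q₀ : ι) :
    ∑ m ∈ Finset.range (Fintype.card ι + 1),
        (-1) ^ m * esymm univ F m * F q₀ ^ (Fintype.card ι - m) = 0 := by
  rw [← Finset.card_univ, ← prod_sub_eq_sum]
  exact Finset.prod_eq_zero (mem_univ q₀) (sub_self _)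

end Algebra

section Slash

lemma prod_slash_SL {ι : Type*} (s : Finset ι) (k : ℤ) (F : ι → ℍ → ℂ) (γ : SL(2, ℤ)) :
    (∏ i ∈ s, F i) ∣[(s.card : ℤ) * k] γ = ∏ i ∈ s, F i ∣[k] γ := by
  induction s using Finset.cons_induction with
  | empty => simpa using ModularForm.is_invariant_one γ
  | cons a s ha ih =>
    rw [Finset.card_cons, Finset.prod_cons, Finset.prod_cons,
      show ((s.card + 1 : ℕ) : ℤ) * k = k + (s.card : ℤ) * k by push_cast; ring,
      ModularForm.mul_slash_SL2, ih]

lemma pow_slash_SL (k : ℤ) (f : ℍ → ℂ) (n : ℕ) (γ : SL(2, ℤ)) :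
    (f ^ n) ∣[(n : ℤ) * k] γ = (f ∣[k] γ) ^ n := by
  have := prod_slash_SL (Finset.range n) k (fun _ => f) γ
  simpa using this

lemma esymm_slash {ι : Type*} (s : Finset ι) (k : ℤ) (G : ι → ℍ → ℂ) (m : ℕ) (γ : SL(2, ℤ)) :
    esymm s G m ∣[(m : ℤ) * k] γ = esymm s (fun i => G i ∣[k] γ) m := by
  simp only [esymm, SlashAction.sum_slash]
  refine Finset.sum_congr rfl fun t ht => ?_
  rw [← (Finset.mem_powersetCard.1 ht).2, prod_slash_SL]

lemma bdd_sum {ι : Type*} (s : Finset ι) {F : ι → ℍ → ℂ}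
    (h : ∀ i ∈ s, IsBoundedAtImInfty (F i)) : IsBoundedAtImInfty (∑ i ∈ s, F i) :=
  Finset.sum_induction F IsBoundedAtImInfty (fun _ _ h h' => h.add h')
    (atImInfty.const_boundedAtFilter 0) h

lemma bdd_prod {ι : Type*} (s : Finset ι) {F : ι → ℍ → ℂ}
    (h : ∀ i ∈ s, IsBoundedAtImInfty (F i)) : IsBoundedAtImInfty (∏ i ∈ s, F i) :=
  Finset.prod_induction F IsBoundedAtImInfty (fun _ _ h h' => h.mul h')
    (atImInfty.const_boundedAtFilter 1) h

lemma bdd_esymm {ι : Type*} (s : Finset ι) {G : ι → ℍ → ℂ} (m : ℕ)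
    (h : ∀ i, IsBoundedAtImInfty (G i)) : IsBoundedAtImInfty (esymm s G m) :=
  bdd_sum _ fun _ _ => bdd_prod _ fun i _ => h i

lemma mdiff_sum {ι : Type*} (s : Finset ι) {F : ι → ℍ → ℂ} (h : ∀ i ∈ s, MDiff (F i)) :
    MDiff (∑ i ∈ s, F i) :=
  Finset.sum_induction F (fun g => MDiff g) (fun _ _ h h' => h.add h') mdifferentiable_const h

lemma mdiff_prod {ι : Type*} (s : Finset ι) {F : ι → ℍ → ℂ} (h : ∀ i ∈ s, MDiff (F i)) :
    MDiff (∏ i ∈ s, F i) :=
  Finset.prod_induction F (fun g => MDiff g) (fun _ _ h h' => h.mul h') mdifferentiable_const h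

lemma mdiff_esymm {ι : Type*} (s : Finset ι) {G : ι → ℍ → ℂ} (m : ℕ)
    (h : ∀ i, MDiff (G i)) : MDiff (esymm s G m) :=
  mdiff_sum _ fun _ _ => mdiff_prod _ fun i _ => h i

end Slash

section Coset

variable (N : ℕ)

/-- Left cosets of `Γ₀(N)` in `SL(2,ℤ)`. -/
abbrev Coset : Type := SL(2, ℤ) ⧸ Gamma0 N

/-- The identity coset. -/
abbrev Coset.one : Coset N := QuotientGroup.mk 1

instance cosetFintype [NeZero N] : Fintype (Coset N) := Subgroup.fintypeQuotientOfFiniteIndex

instance cosetDecidableEq : DecidableEq (Coset N) := Classical.decEq _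

variable {N}

/-- The conjugate of `f` attached to the coset `q`. -/
def conj (k : ℤ) (f : ℍ → ℂ) (q : Coset N) : ℍ → ℂ := f ∣[k] (q.out)⁻¹

lemma conj_mk {k : ℤ} {f : ℍ → ℂ} (hf : ∀ γ ∈ Gamma0 N, f ∣[k] γ = f) (γ : SL(2, ℤ)) :
    conj k f (QuotientGroup.mk γ : Coset N) = f ∣[k] γ⁻¹ := by
  have h : γ⁻¹ * (QuotientGroup.mk γ : Coset N).out ∈ Gamma0 N := by
    rw [← QuotientGroup.eq]
    exact (QuotientGroup.out_eq' _).symm
  rw [conj]
  conv_rhs => rw [show γ⁻¹ = (γ⁻¹ * (QuotientGroup.mk γ : Coset N).out) *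
    ((QuotientGroup.mk γ : Coset N).out)⁻¹ by group, SlashAction.slash_mul, hf _ h]

lemma conj_one {k : ℤ} {f : ℍ → ℂ} (hf : ∀ γ ∈ Gamma0 N, f ∣[k] γ = f) :
    conj k f (Coset.one N) = f := by
  rw [conj_mk hf, inv_one, SlashAction.slash_one]

lemma conj_slash {k : ℤ} {f : ℍ → ℂ} (hf : ∀ γ ∈ Gamma0 N, f ∣[k] γ = f) (q : Coset N)
    (γ : SL(2, ℤ)) : conj k f q ∣[k] γ = conj k f (γ⁻¹ • q) := by
  have h : γ⁻¹ • q = QuotientGroup.mk (γ⁻¹ * q.out) := by
    conv_lhs => rw [← QuotientGroup.out_eq' q]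
    rfl
  rw [h, conj_mk hf, mul_inv_rev, inv_inv, SlashAction.slash_mul, conj]

variable [NeZero N] {k w : ℤ} {f G : ℍ → ℂ}

omit [NeZero N] in
lemma bdd_conj (hf : IsForm N k f) (q : Coset N) : IsBoundedAtImInfty (conj k f q) := hf.bdd _

omit [NeZero N] in
lemma mdiff_conj (hf : IsForm N k f) (q : Coset N) : MDiff (conj k f q) :=
  mdiff_slash_SL hf.holo _

/-- Elementary symmetric function of the conjugates. -/
def esymConj (N : ℕ) [NeZero N] (k : ℤ) (f : ℍ → ℂ) (m : ℕ) : ℍ → ℂ :=
  esymm (univ : Finset (Coset N)) (conj k f) m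

/-- Interpolation coefficient of the conjugates of `f` at the conjugates of `G`. -/
def interpConj (N : ℕ) [NeZero N] (k w : ℤ) (f G : ℍ → ℂ) (m : ℕ) : ℍ → ℂ :=
  interpCoeff (conj (N := N) k f) (conj w G) m

theorem esymConj_levelOne (hf : IsForm N k f) (m : ℕ) :
    IsLevelOne ((m : ℤ) * k) (esymConj N k f m) where
  holo := mdiff_esymm _ _ (mdiff_conj hf)
  slash γ := by
    rw [esymConj, esymm_slash]
    let e : Coset N ≃ Coset N := MulAction.toPerm γ⁻¹
    conv_rhs => rw [← Finset.map_univ_equiv e, esymm_map]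
    congr 1
    funext q
    exact conj_slash hf.slash q γ
  bdd := bdd_esymm _ _ (bdd_conj hf)

theorem interpConj_levelOne (hf : IsForm N k f) (hG : IsForm N w G) (m : ℕ) :
    IsLevelOne (k + (m : ℤ) * w) (interpConj N k w f G m) where
  holo := mdiff_sum _ fun q _ => (mdiff_conj hf q).mul (mdiff_esymm _ _ (mdiff_conj hG))
  slash γ := by
    simp only [interpConj, interpCoeff, SlashAction.sum_slash, ModularForm.mul_slash_SL2,
      esymm_slash]
    let e : Coset N ≃ Coset N := MulAction.toPerm γ⁻¹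
    refine Fintype.sum_equiv e _ _ fun q => ?_
    rw [show (univ : Finset (Coset N)).erase (e q) = (univ.erase q).map e.toEmbedding by
      rw [Finset.map_erase, Finset.map_univ_equiv]; rfl, esymm_map]
    congr 1
    · exact conj_slash hf.slash q γ
    · congr 1
      funext r
      exact conj_slash hG.slash r γ
  bdd := bdd_sum _ fun q _ => (bdd_conj hf q).mul (bdd_esymm _ _ (bdd_conj hG))

/-- The derivative of the polynomial of `G` evaluated at `G`. -/
def conjDiffProd (N : ℕ) [NeZero N] (w : ℤ) (G : ℍ → ℂ) : ℍ → ℂ :=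
  ∏ q ∈ (univ : Finset (Coset N)).erase (Coset.one N), (G - conj w G q)

/-- Lagrange interpolation: `f · Φ'(G) = P(G)`. -/
theorem interpConj_eval (hf : ∀ γ ∈ Gamma0 N, f ∣[k] γ = f)
    (hG : ∀ γ ∈ Gamma0 N, G ∣[w] γ = G) :
    ∑ m ∈ Finset.range (Fintype.card (Coset N)),
        (-1) ^ m * interpConj N k w f G m * G ^ (Fintype.card (Coset N) - 1 - m)
      = f * conjDiffProd N w G := by
  have h := interp_eval (conj (N := N) k f) (conj w G) (Coset.one N)
  rw [conj_one hf, conj_one hG] at h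
  exact h

/-- `f` is a root of the monic polynomial of its conjugates. -/
theorem esymConj_eval (hf : ∀ γ ∈ Gamma0 N, f ∣[k] γ = f) :
    ∑ m ∈ Finset.range (Fintype.card (Coset N) + 1),
        (-1) ^ m * esymConj N k f m * f ^ (Fintype.card (Coset N) - m) = 0 := by
  have h := esymm_eval (conj (N := N) k f) (Coset.one N)
  rw [conj_one hf] at h
  exact h

end Coset

end Fermat.Agent.MFCore
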