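import Mathlib
import Fermat.Agent.MFCore.Conj

/-!
# A quotient of holomorphic functions which is a root of a monic polynomial with holomorphic
coefficients is holomorphic
-/

noncomputable section

set_option autoImplicit false

namespace Fermat.Agent.MFCore

open UpperHalfPlane Complex Filter Topology Function
open scoped Manifold MatrixGroups ModularForm

/-- A root of `y^n + ∑ c m y^(n-m-1)` is bounded by `1 + ∑ ‖c m‖`. -/
lemma norm_root_le {n : ℕ} {c : ℕ → ℂ} {y : ℂ}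
    (h : y ^ n + ∑ m ∈ Finset.range n, c m * y ^ (n - (m + 1)) = 0) :
    ‖y‖ ≤ 1 + ∑ m ∈ Finset.range n, ‖c m‖ := by
  by_contra hy
  push Not at hy
  have hy1 : 1 ≤ ‖y‖ := le_trans (le_add_of_nonneg_right (by positivity)) hy.le
  rcases Nat.eq_zero_or_pos n with rfl | hn
  · simp at h
  have h' : y ^ n = -∑ m ∈ Finset.range n, c m * y ^ (n - (m + 1)) := eq_neg_of_add_eq_zero_left h
  have : ‖y‖ ^ n ≤ (∑ m ∈ Finset.range n, ‖c m‖) * ‖y‖ ^ (n - 1) := by
    rw [← norm_pow, h', norm_neg, Finset.sum_mul]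
    refine (norm_sum_le _ _).trans (Finset.sum_le_sum fun m _ => ?_)
    rw [norm_mul, norm_pow]
    exact mul_le_mul_of_nonneg_left (pow_le_pow_right₀ hy1 (by omega)) (norm_nonneg _)
  rw [show ‖y‖ ^ n = ‖y‖ * ‖y‖ ^ (n - 1) by rw [← pow_succ']; congr 1; omega] at this
  have := le_of_mul_le_mul_right this (by positivity)
  linarith

/-- If all coefficients are small, so are the roots. -/
lemma norm_root_lt {n : ℕ} {c : ℕ → ℂ} {y : ℂ} {ε : ℝ} (hε : 0 < ε)
    (h : y ^ n + ∑ m ∈ Finset.range n, c m * y ^ (n - (m + 1)) = 0)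
    (hs : ∑ m ∈ Finset.range n, ‖c m‖ / ε ^ (m + 1) < 1) : ‖y‖ < ε := by
  by_contra hy
  push Not at hy
  have hy0 : 0 < ‖y‖ := hε.trans_le hy
  have h' : y ^ n = -∑ m ∈ Finset.range n, c m * y ^ (n - (m + 1)) := eq_neg_of_add_eq_zero_left h
  have h2 : ‖y‖ ^ n ≤ (∑ m ∈ Finset.range n, ‖c m‖ / ε ^ (m + 1)) * ‖y‖ ^ n := by
    conv_lhs => rw [← norm_pow, h', norm_neg]
    rw [Finset.sum_mul]
    refine (norm_sum_le _ _).trans (Finset.sum_le_sum fun m hm => ?_)
    rw [norm_mul, norm_pow]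
    have hm' : m + 1 ≤ n := Finset.mem_range.1 hm
    have e : ‖y‖ ^ n = ‖y‖ ^ (m + 1) * ‖y‖ ^ (n - (m + 1)) := by
      rw [← pow_add]; congr 1; omega
    rw [e, div_mul_eq_mul_div, le_div_iff₀ (by positivity), mul_assoc]
    refine mul_le_mul_of_nonneg_left ?_ (norm_nonneg _)
    rw [mul_comm]
    exact mul_le_mul_of_nonneg_right (pow_le_pow_left₀ hε.le hy _) (by positivity)
  have : ‖y‖ ^ n * 1 ≤ ‖y‖ ^ n * (∑ m ∈ Finset.range n, ‖c m‖ / ε ^ (m + 1)) := by
    linarith [mul_comm (∑ m ∈ Finset.range n, ‖c m‖ / ε ^ (m + 1)) (‖y‖ ^ n)]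
  have := le_of_mul_le_mul_left this (by positivity)
  linarith

/-- Division lemma. -/
theorem exists_mdiff_mul_eq {n : ℕ} {a b : ℍ → ℂ} {c : ℕ → ℍ → ℂ} (ha : MDiff a) (hb : MDiff b)
    (hb0 : b ≠ 0) (hc : ∀ m, MDiff (c m))
    (h : a ^ n + ∑ m ∈ Finset.range n, c m * a ^ (n - (m + 1)) * b ^ (m + 1) = 0) :
    ∃ F : ℍ → ℂ, MDiff F ∧ F * b = a ∧
      F ^ n + ∑ m ∈ Finset.range n, c m * F ^ (n - (m + 1)) = 0 := by
  have ha' : DifferentiableOn ℂ (a ∘ UpperHalfPlane.ofComplex) upperHalfPlaneSet :=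
    UpperHalfPlane.mdifferentiable_iff.1 ha
  have hb' : DifferentiableOn ℂ (b ∘ UpperHalfPlane.ofComplex) upperHalfPlaneSet :=
    UpperHalfPlane.mdifferentiable_iff.1 hb
  set u : ℂ → ℂ := (a ∘ UpperHalfPlane.ofComplex) / (b ∘ UpperHalfPlane.ofComplex) with hu
  -- the quotient solves the monic equation where `b ≠ 0`
  have hroot : ∀ τ : ℍ, b τ ≠ 0 →
      (u τ) ^ n + ∑ m ∈ Finset.range n, c m τ * (u τ) ^ (n - (m + 1)) = 0 := by
    intro τ hτ
    have h1 : u τ * b τ = a τ := by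
      simp [hu, UpperHalfPlane.ofComplex_apply, div_mul_cancel₀ _ hτ]
    have h2 := congrFun h τ
    simp only [Pi.add_apply, Pi.pow_apply, Finset.sum_apply, Pi.mul_apply, Pi.zero_apply,
      ← h1] at h2
    suffices b τ ^ n * _ = 0 from (mul_eq_zero.1 this).resolve_left (pow_ne_zero _ hτ)
    rw [← h2, mul_add, Finset.mul_sum]
    refine congrArg₂ (· + ·) (by ring) (Finset.sum_congr rfl fun m hm => ?_)
    have hm' : m + 1 ≤ n := Finset.mem_range.1 hm
    conv_lhs => rw [show n = (n - (m + 1)) + (m + 1) by omega]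
    rw [pow_add, mul_pow]
    simp only [show (n - (m + 1)) + (m + 1) - (m + 1) = n - (m + 1) by omega]
    ring
  have hiso : ∀ τ : ℍ, ∀ᶠ z in 𝓝[≠] τ, b z ≠ 0 := by
    intro τ
    by_contra hf
    rw [not_eventually] at hf
    simp only [not_not] at hf
    exact hb0 (UpperHalfPlane.eq_zero_of_frequently hb hf)
  -- removable singularities
  have key : ∀ z₀ ∈ upperHalfPlaneSet, ∃ s ∈ 𝓝 z₀, s ⊆ upperHalfPlaneSet ∧
      (∀ z ∈ s \ {z₀}, (b ∘ UpperHalfPlane.ofComplex) z ≠ 0) ∧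
      DifferentiableOn ℂ u (s \ {z₀}) ∧ BddAbove (norm ∘ u '' (s \ {z₀})) := by
    intro z₀ hz₀
    set τ₀ : ℍ := ⟨z₀, hz₀⟩ with hτ₀
    obtain ⟨M, hM⟩ : ∃ M, ∀ᶠ τ in 𝓝 τ₀, 1 + ∑ m ∈ Finset.range n, ‖c m τ‖ ≤ M := by
      refine ⟨(1 + ∑ m ∈ Finset.range n, ‖c m τ₀‖) + 1, ?_⟩
      have hcont : Continuous fun τ => 1 + ∑ m ∈ Finset.range n, ‖c m τ‖ :=
        continuous_const.add (continuous_finsetSum _ fun m _ => (hc m).continuous.norm)
      exact (hcont.tendsto τ₀).eventually_le_const (lt_add_one _)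
    have h1 : ∀ᶠ z in 𝓝 z₀, 0 < z.im ∧
        (z ≠ z₀ → b (UpperHalfPlane.ofComplex z) ≠ 0) ∧
        1 + ∑ m ∈ Finset.range n, ‖c m (UpperHalfPlane.ofComplex z)‖ ≤ M := by
      have hE : ∀ᶠ τ in 𝓝 τ₀, (τ ≠ τ₀ → b τ ≠ 0) ∧
          1 + ∑ m ∈ Finset.range n, ‖c m τ‖ ≤ M :=
        (eventually_nhdsWithin_iff.1 (hiso τ₀)).and hM
      have : ∀ᶠ z in Filter.map ((↑) : ℍ → ℂ) (𝓝 τ₀), 0 < z.im ∧
          (z ≠ z₀ → b (UpperHalfPlane.ofComplex z) ≠ 0) ∧
          1 + ∑ m ∈ Finset.range n, ‖c m (UpperHalfPlane.ofComplex z)‖ ≤ M := by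
        rw [eventually_map]
        filter_upwards [hE] with τ hτ
        refine ⟨τ.im_pos, fun hne => ?_, ?_⟩
        · rw [UpperHalfPlane.ofComplex_apply]
          exact hτ.1 fun he => hne (by rw [he, hτ₀])
        · rw [UpperHalfPlane.ofComplex_apply]
          exact hτ.2
      rwa [UpperHalfPlane.isOpenEmbedding_coe.map_nhds_eq] at this
    refine ⟨_, h1, fun z hz => hz.1, fun z hz => hz.1.2.1 hz.2, ?_, ⟨M, ?_⟩⟩
    · exact ((ha'.mono fun z hz => hz.1.1).div (hb'.mono fun z hz => hz.1.1)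
        fun z hz => hz.1.2.1 hz.2)
    · rintro _ ⟨z, hz, rfl⟩
      have hz' := hroot ⟨z, hz.1.1⟩ (by
        have := hz.1.2.1 hz.2
        rwa [UpperHalfPlane.ofComplex_apply_of_im_pos hz.1.1] at this)
      refine (norm_root_le hz').trans ?_
      have := hz.1.2.2
      rwa [UpperHalfPlane.ofComplex_apply_of_im_pos hz.1.1] at this
  set Fc : ℂ → ℂ := fun z => limUnder (𝓝[≠] z) u with hFc
  have hFu : ∀ z ∈ upperHalfPlaneSet, (b ∘ UpperHalfPlane.ofComplex) z ≠ 0 → Fc z = u z := by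
    intro z hz hbz
    have hc1 := (ha'.differentiableAt (isOpen_upperHalfPlaneSet.mem_nhds hz)).continuousAt
    have hc2 := (hb'.differentiableAt (isOpen_upperHalfPlaneSet.mem_nhds hz)).continuousAt
    exact ((hc1.div hc2 hbz).tendsto.mono_left nhdsWithin_le_nhds).limUnder_eq
  have hFd : DifferentiableOn ℂ Fc upperHalfPlaneSet := by
    intro z₀ hz₀
    obtain ⟨s, hs, hsub, hne, hd, hbd⟩ := key z₀ hz₀
    have H := Complex.differentiableOn_update_limUnder_of_bddAbove hs hd hbd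
    have heq : Set.EqOn Fc (update u z₀ (limUnder (𝓝[≠] z₀) u)) s := by
      intro z hz
      rcases eq_or_ne z z₀ with rfl | hzne
      · simp [hFc]
      · rw [update_of_ne hzne, hFu z (hsub hz) (hne z ⟨hz, hzne⟩)]
    exact ((H.congr heq).differentiableAt hs).differentiableWithinAt
  refine ⟨fun τ => Fc τ, ?_, ?_, ?_⟩
  · rw [UpperHalfPlane.mdifferentiable_iff]
    exact hFd.congr fun z hz => by simp [UpperHalfPlane.ofComplex_apply_of_im_pos hz]
  all_goals
    have hFm : MDiff (fun τ : ℍ => Fc τ) := by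
      rw [UpperHalfPlane.mdifferentiable_iff]
      exact hFd.congr fun z hz => by simp [UpperHalfPlane.ofComplex_apply_of_im_pos hz]
  · rw [← sub_eq_zero]
    refine UpperHalfPlane.eq_zero_of_frequently (τ := UpperHalfPlane.I) ((hFm.mul hb).sub ha) ?_
    refine (hiso _).frequently.mono fun τ hτ => ?_
    have := hFu τ τ.im_pos (by simpa using hτ)
    simp [this, hu, div_mul_cancel₀ _ hτ]
  · refine UpperHalfPlane.eq_zero_of_frequently (τ := UpperHalfPlane.I) ?_ ?_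
    · refine (hFm.pow n).add (mdiff_sum _ fun m _ => (hc m).mul (hFm.pow _))
    · refine (hiso _).frequently.mono fun τ hτ => ?_
      have := hFu τ τ.im_pos (by simpa using hτ)
      simpa [this] using hroot τ hτ

end Fermat.Agent.MFCore
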