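import Mathlib
import Fermat.Prelude.Def_ModularForm_HeckeOperator
import Fermat.Agent.MFCore.Conj

/-!
# `τ ↦ f(Nτ)` for a level-one form `f`, and `Δ(Nτ)`

The `SL(2,ℤ)`-conjugates of `Δ(Nτ)` attached to different cosets of `Γ₀(N)` are different.
-/

noncomputable section

set_option autoImplicit false

namespace Fermat.Agent.MFCore

open UpperHalfPlane Complex Filter Topology Function CongruenceSubgroup
open scoped Manifold MatrixGroups ModularForm Real

/-- `τ ↦ f(Nτ)`. -/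
def lift (N : ℕ) (f : ℍ → ℂ) : ℍ → ℂ := fun τ => f (ModularForm.heckeDiagMatrix N • τ)

variable {N : ℕ} [NeZero N] {k : ℤ} {f : ℍ → ℂ}

lemma qExp_coeff_unique {F : ℍ → ℂ} (hF : IsQ F) {c : ℕ → ℂ}
    (hs : ∀ τ : ℍ, HasSum (fun m => c m • Periodic.qParam 1 τ ^ m) (F τ)) (n : ℕ) :
    c n = (qExp F).coeff n := by
  have h1 := (hasFPowerSeriesOnBall_cuspFunction one_pos hF.analyticAt hs).hasFPowerSeriesAt
  have h2 := congrArg (fun p => FormalMultilinearSeries.coeff p n)
    (h1.eq_formalMultilinearSeries hF.analyticAt.hasFPowerSeriesAt)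
  simpa [FormalMultilinearSeries.coeff_ofScalars, qExp, qExpansion_coeff, div_eq_inv_mul] using h2

lemma lift_apply (f : ℍ → ℂ) (τ : ℍ) :
    lift N f τ = f ⟨(N : ℂ) * τ, by
      simpa using mul_pos (Nat.cast_pos.2 (NeZero.pos N)) τ.im_pos⟩ := by
  rw [lift]
  congr 1
  ext
  simp [ModularForm.coe_heckeDiagMatrix_smul (NeZero.ne N)]

/-- Data of a Hermite normal form of `diag(N,1)·γ`. -/
structure Hermite (N : ℕ) (γ : SL(2, ℤ)) where
  g : ℕ
  d : ℕ
  b : ℤ
  δ : SL(2, ℤ)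
  g_pos : 0 < g
  d_pos : 0 < d
  mul_eq : g * d = N
  dvd : (g : ℤ) ∣ γ 1 0
  eq : ModularForm.heckeDiagMatrix N * (γ : GL (Fin 2) ℝ) =
    (δ : GL (Fin 2) ℝ) * ModularForm.upperTriangularGL g b d
      (by exact_mod_cast (Nat.mul_pos g_pos d_pos).ne')

lemma exists_hermite (γ : SL(2, ℤ)) : Nonempty (Hermite N γ) := by
  set p := γ 0 0 with hp
  set q := γ 0 1 with hq
  set r := γ 1 0 with hr
  set s := γ 1 1 with hs
  have hdet : p * s - q * r = 1 := by
    have := γ.2
    rw [Matrix.det_fin_two] at this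
    exact this
  obtain ⟨g, hgdef⟩ : ∃ g : ℕ, g = Int.gcd ((N : ℤ) * p) r := ⟨_, rfl⟩
  have hgp : (g : ℤ) ∣ (N : ℤ) * p := hgdef ▸ Int.gcd_dvd_left _ _
  have hgr : (g : ℤ) ∣ r := hgdef ▸ Int.gcd_dvd_right _ _
  have hgN : (g : ℤ) ∣ (N : ℤ) := by
    have : (N : ℤ) = (N : ℤ) * p * s - (N : ℤ) * q * r := by linear_combination -(N : ℤ) * hdet
    rw [this]
    exact dvd_sub (hgp.mul_right s) (hgr.mul_left _)
  have hg0 : g ≠ 0 := by rintro rfl; simp at hgN; exact (NeZero.ne N) hgN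
  have hgN' : g ∣ N := by exact_mod_cast hgN
  obtain ⟨d, hd⟩ := hgN'
  have hd0 : d ≠ 0 := by rintro rfl; simp at hd; exact NeZero.ne N hd
  obtain ⟨u, v, huv⟩ : ∃ u v : ℤ, (g : ℤ) = ((N : ℤ) * p) * u + r * v :=
    ⟨_, _, hgdef ▸ Int.gcd_eq_gcd_ab _ _⟩
  obtain ⟨α, hα⟩ := hgp
  obtain ⟨ρ, hρ⟩ := hgr
  have hgz : (g : ℤ) ≠ 0 := by exact_mod_cast hg0
  have hdN : (N : ℤ) = g * d := by exact_mod_cast hd
  have h1 : α * u + ρ * v = 1 := mul_left_cancel₀ hgz (by
    linear_combination -huv - u * hα - v * hρ)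
  let b : ℤ := u * N * q + v * s
  let δ : SL(2, ℤ) := ⟨!![α, -v; ρ, u], by rw [Matrix.det_fin_two_of]; linear_combination h1⟩
  have h2 : α * s - (N : ℤ) * q * ρ = d := mul_left_cancel₀ hgz (by
    linear_combination (N : ℤ) * hdet + hdN - s * hα + (N : ℤ) * q * hρ)
  have e2 : α * b - v * d = (N : ℤ) * q := by
    linear_combination (N : ℤ) * q * h1 + v * h2
  have e3 : ρ * b + u * d = s := by
    linear_combination s * h1 - u * h2
  refine ⟨⟨g, d, b, δ, Nat.pos_of_ne_zero hg0, Nat.pos_of_ne_zero hd0, hd.symm, ⟨ρ, hρ⟩, ?_⟩⟩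
  apply Units.ext
  rw [Units.val_mul, Units.val_mul, ModularForm.val_heckeDiagMatrix (NeZero.ne N),
    ModularForm.val_upperTriangularGL]
  ext i j
  have c1 : ((N : ℤ) : ℝ) * (p : ℝ) = ((g : ℤ) : ℝ) * α := by exact_mod_cast hα
  have c2 : (r : ℝ) = ((g : ℤ) : ℝ) * ρ := by exact_mod_cast hρ
  have c3 : (α : ℝ) * b - v * (d : ℤ) = ((N : ℤ) : ℝ) * q := by exact_mod_cast e2
  have c4 : (ρ : ℝ) * b + u * (d : ℤ) = (s : ℝ) := by exact_mod_cast e3
  push_cast at c1 c2 c3 c4
  fin_cases i <;> fin_cases j <;>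
    simp [δ, Matrix.mul_apply, Fin.sum_univ_two, ← hp, ← hq, ← hr, ← hs]
  · linarith
  · linarith
  · linarith
  · linarith

namespace Hermite

variable {γ : SL(2, ℤ)} (H : Hermite N γ)

/-- The upper triangular matrix. -/
def mat : GL (Fin 2) ℝ := ModularForm.upperTriangularGL H.g H.b H.d
  (by exact_mod_cast (Nat.mul_pos H.g_pos H.d_pos).ne')

omit [NeZero N] in
lemma det_mat : ((H.mat).det : ℝ) = (N : ℝ) := by
  rw [Matrix.GeneralLinearGroup.val_det_apply, mat, ModularForm.val_upperTriangularGL,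
    Matrix.det_fin_two_of]
  simp only [mul_zero, sub_zero]
  exact_mod_cast H.mul_eq

lemma coe_mat_smul (τ : ℍ) : ((H.mat • τ : ℍ) : ℂ) = ((H.g : ℂ) * τ + H.b) / H.d := by
  rw [UpperHalfPlane.coe_smul_of_det_pos (by rw [H.det_mat]; exact_mod_cast NeZero.pos N)]
  simp [UpperHalfPlane.num, UpperHalfPlane.denom, mat]

lemma im_mat_smul (τ : ℍ) : (H.mat • τ : ℍ).im = (H.g : ℝ) / H.d * τ.im := by
  have := congrArg Complex.im (H.coe_mat_smul τ)
  rw [UpperHalfPlane.coe_im] at this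
  rw [this]
  simp
  ring

lemma tendsto_mat_smul : Tendsto (fun τ : ℍ => H.mat • τ) atImInfty atImInfty := by
  rw [atImInfty, tendsto_comap_iff]
  have h : 0 < (H.g : ℝ) / H.d := div_pos (by exact_mod_cast H.g_pos) (by exact_mod_cast H.d_pos)
  simpa [Function.comp_def, H.im_mat_smul] using
    (tendsto_comap (f := UpperHalfPlane.im) (x := atTop)).const_mul_atTop h

include H in
/-- The effect of slashing `f(Nτ)` by `γ`. -/
lemma lift_slash (hf : ∀ δ : SL(2, ℤ), f ∣[k] δ = f) (τ : ℍ) :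
    (lift N f ∣[k] γ) τ = ((H.d : ℂ) ^ k)⁻¹ * f (H.mat • τ) := by
  have hN : (N : ℂ) ≠ 0 := Nat.cast_ne_zero.2 (NeZero.ne N)
  have h1 : ((N : ℂ) ^ (k - 1)) • lift N f = f ∣[k] ModularForm.heckeDiagMatrix N := by
    funext z
    rw [ModularForm.slash_heckeDiagMatrix_apply k (NeZero.ne N)]
    rfl
  have h2 : (((N : ℂ) ^ (k - 1)) • lift N f) ∣[k] γ = f ∣[k] H.mat := by
    rw [h1, ModularForm.SL_slash, ← SlashAction.slash_mul, H.eq, SlashAction.slash_mul,
      ← ModularForm.SL_slash, hf]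
    rfl
  have h3 := congrFun h2 τ
  rw [ModularForm.SL_smul_slash, Pi.smul_apply, smul_eq_mul, ModularForm.slash_apply] at h3
  rw [← mul_right_inj' (zpow_ne_zero (k - 1) hN), h3, H.det_mat, UpperHalfPlane.σ,
    if_pos (by rw [H.det_mat]; exact_mod_cast NeZero.pos N), zpow_neg]
  simp [UpperHalfPlane.denom, mat]
  ring

end Hermite

lemma lift_isForm (hf : IsLevelOne k f) : IsForm N k (lift N f) where
  holo := by
    have h := MDifferentiable.slash hf.holo k (ModularForm.heckeDiagMatrix N)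
    have hN : (N : ℂ) ^ (k - 1) ≠ 0 := zpow_ne_zero _ (Nat.cast_ne_zero.2 (NeZero.ne N))
    have e : lift N f = ((N : ℂ) ^ (k - 1))⁻¹ • (f ∣[k] ModularForm.heckeDiagMatrix N) := by
      funext z
      rw [Pi.smul_apply, smul_eq_mul, ModularForm.slash_heckeDiagMatrix_apply k (NeZero.ne N),
        inv_mul_cancel_left₀ hN]
      rfl
    rw [e]
    exact h.const_smul _
  slash γ hγ := by
    obtain ⟨H⟩ := exists_hermite (N := N) γ
    rw [Gamma0_mem, ZMod.intCast_zmod_eq_zero_iff_dvd] at hγ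
    have hgN : H.g = N := by
      -- `gcd`-free argument: both `g ∣ N` and the lower-left relation force `d = 1`
      have hu := congrArg (fun M : GL (Fin 2) ℝ => (M : Matrix (Fin 2) (Fin 2) ℝ) 0 0) H.eq
      have hl := congrArg (fun M : GL (Fin 2) ℝ => (M : Matrix (Fin 2) (Fin 2) ℝ) 1 0) H.eq
      simp [Matrix.mul_apply, Fin.sum_univ_two, NeZero.ne N] at hu hl
      have hu' : (N : ℤ) * γ 0 0 = H.δ 0 0 * H.g := by exact_mod_cast hu
      have hl' : γ 1 0 = H.δ 1 0 * H.g := by exact_mod_cast hl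
      obtain ⟨c, hc⟩ := hγ
      have hdet := H.δ.2
      rw [Matrix.det_fin_two] at hdet
      have : (N : ℤ) ∣ H.g := ⟨γ 0 0 * H.δ 1 1 - H.δ 0 1 * c, by
        linear_combination -(H.g : ℤ) * hdet - H.δ 1 1 * hu' + H.δ 0 1 * hl' - H.δ 0 1 * hc⟩
      exact Nat.dvd_antisymm (Dvd.intro _ H.mul_eq) (by exact_mod_cast this)
    have hd1 : H.d = 1 := by
      have := H.mul_eq
      rw [hgN] at this
      exact mul_left_cancel₀ (NeZero.ne N) (this.trans (mul_one N).symm)
    funext τ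
    rw [H.lift_slash hf.slash, hd1]
    simp only [Nat.cast_one, one_zpow, inv_one, one_mul]
    have hT : f ∣[k] (ModularGroup.T ^ H.b) = f := hf.slash _
    conv_rhs => rw [lift, ← hT]
    rw [ModularForm.SL_slash_apply, modular_T_zpow_smul]
    have : denom ((ModularGroup.T ^ H.b : SL(2, ℤ)) : GL (Fin 2) ℝ)
        (ModularForm.heckeDiagMatrix N • τ : ℍ) = 1 := by
      simp [denom, ModularGroup.coe_T_zpow H.b, -map_zpow]
    rw [this, one_zpow, mul_one]
    congr 1
    ext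
    rw [H.coe_mat_smul, UpperHalfPlane.coe_vadd,
      ModularForm.coe_heckeDiagMatrix_smul (NeZero.ne N), hgN, hd1]
    push_cast
    ring
  bdd γ := by
    obtain ⟨H⟩ := exists_hermite (N := N) γ
    have e : lift N f ∣[k] γ = fun τ => ((H.d : ℂ) ^ k)⁻¹ * f (H.mat • τ) :=
      funext fun τ => H.lift_slash hf.slash τ
    rw [e]
    exact (hf.bdd.comp_tendsto H.tendsto_mat_smul).const_mul_left _

lemma qExp_lift (hf : IsLevelOne k f) (n : ℕ) :
    (qExp (lift N f)).coeff n = if N ∣ n then (qExp f).coeff (n / N) else 0 := by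
  have hQ : IsQ (lift N f) := (lift_isForm hf).isQ
  set c : ℕ → ℂ := fun n => if N ∣ n then (qExp f).coeff (n / N) else 0 with hc
  refine (qExp_coeff_unique hQ (c := c) (fun τ => ?_) n).symm
  have hs := hasSum_qExpansion one_pos (by simpa using hf.isQ.periodic) hf.holo hf.bdd
    (ModularForm.heckeDiagMatrix N • τ)
  have hq : Periodic.qParam 1 (ModularForm.heckeDiagMatrix N • τ : ℍ) =
      Periodic.qParam 1 τ ^ N := by
    rw [ModularForm.coe_heckeDiagMatrix_smul (NeZero.ne N)]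
    simp only [Periodic.qParam, ← Complex.exp_nat_mul]
    congr 1
    push_cast
    ring
  simp_rw [hq, ← pow_mul] at hs
  have hinj : Injective (fun m : ℕ => N * m) := mul_right_injective₀ (NeZero.ne N)
  refine (hinj.hasSum_iff ?_).mp ?_
  · intro x hx
    have : ¬ N ∣ x := fun ⟨d, hd⟩ => hx ⟨d, hd.symm⟩
    simp [hc, this]
  · simpa [Function.comp_def, hc, Nat.mul_div_cancel_left _ (NeZero.pos N), lift] using hs

lemma isLevelOne_discriminant : IsLevelOne 12 ModularForm.discriminant := by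
  have h := isLevelOne_modularForm (k := 12) (CuspForm.toModularFormₗ CuspForm.discriminant)
  simpa using! h

/-- `Δ(Nτ)`. -/
def deltaN (N : ℕ) : ℍ → ℂ := lift N ModularForm.discriminant

lemma deltaN_isForm : IsForm N 12 (deltaN N) := lift_isForm isLevelOne_discriminant

/-- If `Δ` at the Hermite conjugate decays as fast as `Δ(Nτ)`, then `γ ∈ Γ₀(N)`. -/
theorem Hermite.mem_Gamma0_of_isBigO {γ : SL(2, ℤ)} (H : Hermite N γ)
    (h2 : (fun τ => ModularForm.discriminant (H.mat • τ)) =O[atImInfty] deltaN N) :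
    γ ∈ Gamma0 N := by
  rw [Gamma0_mem, ZMod.intCast_zmod_eq_zero_iff_dvd]
  suffices H.g = N by simpa [this] using H.dvd
  by_contra hne
  have hlt : (H.g : ℝ) / H.d < N := by
    rw [div_lt_iff₀ (by exact_mod_cast H.d_pos)]
    have hle : H.g ≤ N := Nat.le_of_dvd (NeZero.pos N) (Dvd.intro _ H.mul_eq)
    have : H.g < N * H.d :=
      (lt_of_le_of_ne hle hne).trans_le (Nat.le_mul_of_pos_right N H.d_pos)
    exact_mod_cast this
  have hdiag : Tendsto (fun τ : ℍ => ModularForm.heckeDiagMatrix N • τ) atImInfty atImInfty := by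
    rw [atImInfty, tendsto_comap_iff]
    have hN : (0 : ℝ) < N := Nat.cast_pos.2 (NeZero.pos N)
    refine ((tendsto_comap (f := UpperHalfPlane.im) (x := atTop)).const_mul_atTop hN).congr
      fun τ => ?_
    simpa using (congrArg Complex.im
      (ModularForm.coe_heckeDiagMatrix_smul (NeZero.ne N) τ)).symm
  have himN : ∀ τ : ℍ, (ModularForm.heckeDiagMatrix N • τ : ℍ).im = N * τ.im := fun τ => by
    simpa using congrArg Complex.im (ModularForm.coe_heckeDiagMatrix_smul (NeZero.ne N) τ)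
  have h1 := ModularForm.exp_isBigO_discriminant.comp_tendsto H.tendsto_mat_smul
  have h3 := (CuspFormClass.exp_decay_atImInfty (h := 1) CuspForm.discriminant one_pos
    one_mem_strictPeriods_SL).comp_tendsto hdiag
  have h4 := (h1.trans h2).trans h3
  have hpos : 0 < 2 * π * ((N : ℝ) - H.g / H.d) := by
    have : 0 < (N : ℝ) - H.g / H.d := sub_pos.2 hlt
    positivity
  have ht : Tendsto (fun τ : ℍ => Real.exp (2 * π * ((N : ℝ) - H.g / H.d) * τ.im))
      atImInfty atTop :=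
    Real.tendsto_exp_atTop.comp
      ((tendsto_comap (f := UpperHalfPlane.im) (x := atTop)).const_mul_atTop hpos)
  obtain ⟨C, hC⟩ := h4.bound
  obtain ⟨τ, hτ, hτ'⟩ := (hC.and (ht.eventually_gt_atTop C)).exists
  simp only [Function.comp_apply, Real.norm_eq_abs, Real.abs_exp, H.im_mat_smul, himN] at hτ
  have he : Real.exp (2 * π * ((N : ℝ) - H.g / H.d) * τ.im) *
      Real.exp (-2 * π * (N * τ.im) / 1) = Real.exp (-2 * π * ((H.g : ℝ) / H.d * τ.im)) := by
    rw [← Real.exp_add]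
    congr 1
    ring
  rw [← he] at hτ
  exact absurd (le_of_mul_le_mul_right hτ (Real.exp_pos _)) (not_le.2 hτ')

/-- The stabiliser of `Δ(Nτ)` in `SL(2,ℤ)` is `Γ₀(N)`. -/
theorem mem_Gamma0_of_deltaN_slash (γ : SL(2, ℤ))
    (h : deltaN N ∣[(12 : ℤ)] γ = deltaN N) : γ ∈ Gamma0 N := by
  obtain ⟨H⟩ := exists_hermite (N := N) γ
  have h2 : (fun τ => ModularForm.discriminant (H.mat • τ)) =O[atImInfty] deltaN N := by
    refine Asymptotics.IsBigO.of_bound (‖(H.d : ℂ) ^ (12 : ℤ)‖) (Eventually.of_forall fun τ => ?_)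
    have e := congrFun h τ
    rw [deltaN, H.lift_slash isLevelOne_discriminant.slash] at e
    rw [deltaN, ← e, norm_mul, norm_inv, ← mul_assoc, mul_inv_cancel₀, one_mul]
    simp [(H.d_pos).ne']
  exact H.mem_Gamma0_of_isBigO h2

/-- The conjugates of `Δ(Nτ)` are pairwise distinct. -/
theorem conj_deltaN_injective :
    Function.Injective (conj (N := N) 12 (deltaN N)) := by
  intro a b hab
  rw [← QuotientGroup.out_eq' a, ← QuotientGroup.out_eq' b, QuotientGroup.eq]
  apply mem_Gamma0_of_deltaN_slash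
  have h2 := congrArg (fun F : ℍ → ℂ => F ∣[(12 : ℤ)] b.out) hab
  simp only [conj, ← SlashAction.slash_mul, inv_mul_cancel, SlashAction.slash_one] at h2
  exact h2

/-- A sufficient condition for `Φ'(G) ≠ 0`. -/
theorem conjDiffProd_ne_zero {w : ℤ} {G : ℍ → ℂ} (hG : IsForm N w G)
    (hinj : Function.Injective (conj (N := N) w G)) : conjDiffProd N w G ≠ 0 := by
  rw [conjDiffProd, Ne, UpperHalfPlane.prod_eq_zero_iff fun q _ => hG.holo.sub (mdiff_conj hG q)]
  rintro ⟨q, hq, he⟩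
  rw [sub_eq_zero] at he
  replace he := (conj_one (N := N) hG.slash).trans he
  exact Finset.ne_of_mem_erase hq (hinj he).symm

end Fermat.Agent.MFCore
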