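import Mathlib
import Fermat.Agent.MFCore.Lift
import Fermat.Agent.MFCore.Extend
import Fermat.Agent.LevelOne.IntegralBasis

/-!
# Field automorphisms act on modular forms of level `Γ₀(N)` through the `q`-expansion
-/

noncomputable section

set_option autoImplicit false

namespace Fermat.Agent.MFCore

open UpperHalfPlane Complex Filter Topology Function CongruenceSubgroup
open scoped Manifold MatrixGroups ModularForm

variable {N : ℕ} [NeZero N] {k w : ℤ} {σ : ℂ →+* ℂ} {f G : ℍ → ℂ}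

/-- Twisting level-one forms. -/
lemma exists_twist_levelOne (σ : ℂ →+* ℂ) (hf : IsLevelOne k f) :
    ∃ g, IsLevelOne k g ∧ Twist σ f g := by
  obtain ⟨g, hg⟩ := LevelOne.exists_qExpansion_eq_map σ hf.toModularForm
  exact ⟨g, isLevelOne_modularForm g, hf.isQ, (isLevelOne_modularForm g).isQ, hg⟩

lemma deltaN_coeff_int (n : ℕ) : ∃ m : ℤ, (qExp (deltaN N)).coeff n = (m : ℂ) := by
  rw [deltaN, qExp_lift isLevelOne_discriminant]
  split_ifs
  · exact LevelOne.mem_intSeries_iff.1 LevelOne.discriminant_mem_intSeries _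
  · exact ⟨0, by simp⟩

lemma twist_deltaN (σ : ℂ →+* ℂ) : Twist σ (deltaN N) (deltaN N) := by
  refine ⟨deltaN_isForm.isQ, deltaN_isForm.isQ, ?_⟩
  ext n
  obtain ⟨m, hm⟩ := deltaN_coeff_int (N := N) n
  rw [PowerSeries.coeff_map, hm, map_intCast]

omit [NeZero N] in
lemma neg_one_pow_mul (n : ℕ) (F : ℍ → ℂ) : (-1 : ℍ → ℂ) ^ n * F = ((-1 : ℂ) ^ n) • F := rfl

lemma sum_term_slash {ι : Type*} (s : Finset ι) (K : ℤ) (A : ι → ℍ → ℂ) (e : ι → ℕ)
    (γ : SL(2, ℤ)) :
    (∑ i ∈ s, (-1 : ℍ → ℂ) ^ e i * A i) ∣[K] γ =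
      ∑ i ∈ s, (-1 : ℍ → ℂ) ^ e i * (A i ∣[K] γ) := by
  simp only [neg_one_pow_mul, SlashAction.sum_slash, ModularForm.SL_smul_slash]

/-- `∑ ± c m G^(n-1-m)` is invariant if the coefficients are level one and `G` is invariant. -/
lemma sum_coeff_slash (n : ℕ) (c : ℕ → ℍ → ℂ) (hc : ∀ m : ℕ, IsLevelOne (k + (m : ℤ) * w) (c m))
    (γ : SL(2, ℤ)) :
    (∑ m ∈ Finset.range n, (-1 : ℍ → ℂ) ^ m * (c m * G ^ (n - 1 - m)))
        ∣[k + ((n - 1 : ℕ) : ℤ) * w] γ
      = ∑ m ∈ Finset.range n, (-1 : ℍ → ℂ) ^ m * (c m * (G ∣[w] γ) ^ (n - 1 - m)) := by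
  rw [sum_term_slash]
  refine Finset.sum_congr rfl fun m hm => ?_
  congr 1
  have hm' : m ≤ n - 1 := by have := Finset.mem_range.1 hm; omega
  have : k + ((n - 1 : ℕ) : ℤ) * w = (k + m * w) + ((n - 1 - m : ℕ) : ℤ) * w := by
    rw [Nat.cast_sub hm']; ring
  rw [this, ModularForm.mul_slash_SL2, (hc m).slash, pow_slash_SL]

/-- The twisted monic relation survives slashing. -/
lemma monic_slash (n : ℕ) (F : ℍ → ℂ) (e : ℕ → ℍ → ℂ) (he : ∀ m : ℕ, IsLevelOne ((m : ℤ) * k) (e m))
    (γ : SL(2, ℤ)) :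
    (∑ m ∈ Finset.range (n + 1), (-1 : ℍ → ℂ) ^ m * (e m * F ^ (n - m))) ∣[(n : ℤ) * k] γ
      = ∑ m ∈ Finset.range (n + 1), (-1 : ℍ → ℂ) ^ m * (e m * (F ∣[k] γ) ^ (n - m)) := by
  rw [sum_term_slash]
  refine Finset.sum_congr rfl fun m hm => ?_
  congr 1
  have hm' : m ≤ n := Nat.lt_succ_iff.1 (Finset.mem_range.1 hm)
  have : (n : ℤ) * k = (m : ℤ) * k + ((n - m : ℕ) : ℤ) * k := by
    rw [Nat.cast_sub hm']; ring
  rw [this, ModularForm.mul_slash_SL2, (he m).slash, pow_slash_SL]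

/-- Split off the leading term. -/
lemma monic_split (n : ℕ) (e : ℕ → ℍ → ℂ) (he : e 0 = 1) (F : ℍ → ℂ) :
    ∑ m ∈ Finset.range (n + 1), (-1 : ℍ → ℂ) ^ m * (e m * F ^ (n - m)) =
      F ^ n + ∑ m ∈ Finset.range n, ((-1 : ℍ → ℂ) ^ (m + 1) * e (m + 1)) * F ^ (n - (m + 1)) := by
  rw [Finset.sum_range_succ', he, add_comm]
  simp [mul_assoc]

/-- **Field endomorphisms act on `M_k(Γ₀(N))`**, preserving the vanishing at all cusps. -/
theorem exists_twist_form (σ : ℂ →+* ℂ) (hf : IsForm N k f) :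
    ∃ g, IsForm N k g ∧ Twist σ f g ∧
      ((∀ γ : SL(2, ℤ), IsZeroAtImInfty (f ∣[k] γ)) →
        ∀ γ : SL(2, ℤ), IsZeroAtImInfty (g ∣[k] γ)) := by
  set n := Fintype.card (Coset N) with hn
  set G := deltaN N with hGdef
  have hG : IsForm N 12 G := deltaN_isForm
  have h1 : IsForm N 0 (1 : ℍ → ℂ) :=
    ⟨mdifferentiable_const, fun γ _ => ModularForm.is_invariant_one γ,
      fun γ => by rw [ModularForm.is_invariant_one]; exact atImInfty.const_boundedAtFilter 1⟩
  choose p hp hpt using fun m => exists_twist_levelOne σ (interpConj_levelOne hf hG m)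
  choose d hd hdt using fun m => exists_twist_levelOne σ (interpConj_levelOne h1 hG m)
  choose e he het using fun m => exists_twist_levelOne σ (esymConj_levelOne hf m)
  set num : ℍ → ℂ := ∑ m ∈ Finset.range n, (-1 : ℍ → ℂ) ^ m * (p m * G ^ (n - 1 - m)) with hnum
  set den : ℍ → ℂ := ∑ m ∈ Finset.range n, (-1 : ℍ → ℂ) ^ m * (d m * G ^ (n - 1 - m)) with hden
  set D := conjDiffProd N 12 G with hD
  have hneg : ∀ m : ℕ, Twist σ ((-1 : ℍ → ℂ) ^ m) ((-1 : ℍ → ℂ) ^ m) :=
    fun m => Twist.one.neg.pow m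
  have tnum : Twist σ (f * D) num := by
    rw [hD, ← interpConj_eval hf.slash hG.slash, hnum]
    refine Twist.sum _ fun m _ => ?_
    rw [mul_assoc]
    exact (hneg m).mul ((hpt m).mul ((twist_deltaN σ).pow _))
  have tden : Twist σ D den := by
    have := interpConj_eval (k := 0) h1.slash hG.slash
    rw [one_mul] at this
    rw [hD, ← this, hden]
    refine Twist.sum _ fun m _ => ?_
    rw [mul_assoc]
    exact (hneg m).mul ((hdt m).mul ((twist_deltaN σ).pow _))
  have hden0 : den ≠ 0 := by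
    rw [Ne, ← tden.left_eq_zero_iff]
    exact conjDiffProd_ne_zero hG conj_deltaN_injective
  have he0 : e 0 = 1 := by
    have := het 0
    rw [esymConj, esymm_zero] at this
    exact this.right_unique Twist.one
  -- the twisted relation
  have trel : ∑ m ∈ Finset.range (n + 1),
      (-1 : ℍ → ℂ) ^ m * (e m * num ^ (n - m) * den ^ m) = 0 := by
    have hz : ∑ m ∈ Finset.range (n + 1),
        (-1 : ℍ → ℂ) ^ m * (esymConj N k f m * (f * D) ^ (n - m) * D ^ m) = 0 := by
      have hmul := congrArg (· * D ^ n) (esymConj_eval (N := N) hf.slash)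
      simp only [zero_mul, Finset.sum_mul] at hmul
      rw [← hmul]
      refine Finset.sum_congr rfl fun m hm => ?_
      have hm' : m ≤ n := Nat.lt_succ_iff.1 (Finset.mem_range.1 hm)
      rw [mul_pow, show D ^ n = D ^ (n - m) * D ^ m by rw [← pow_add]; congr 1; omega]
      ring
    refine (Twist.left_eq_zero_iff (σ := σ) ?_).1 hz
    refine Twist.sum _ fun m _ => ?_
    exact (hneg m).mul (((het m).mul (tnum.pow _)).mul (tden.pow m))
  set c : ℕ → ℍ → ℂ := fun m => (-1 : ℍ → ℂ) ^ (m + 1) * e (m + 1) with hc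
  have hcm : ∀ m, MDiff (c m) := fun m => ((hneg (m + 1)).isQ_left.mul (he (m + 1)).isQ).holo
  obtain ⟨F, hFm, hFden, hFroot⟩ := exists_mdiff_mul_eq (n := n) tnum.isQ_right.holo
    tden.isQ_right.holo hden0 hcm (by
      rw [← trel, Finset.sum_range_succ', he0, add_comm]
      refine congrArg₂ (· + ·) (Finset.sum_congr rfl fun m hm => ?_) (by simp)
      rw [hc]
      ring)
  have hroot : ∑ m ∈ Finset.range (n + 1), (-1 : ℍ → ℂ) ^ m * (e m * F ^ (n - m)) = 0 := by
    rw [monic_split n e he0]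
    exact hFroot
  -- the roots at all cusps
  have hrootγ : ∀ γ : SL(2, ℤ), ∀ τ : ℍ,
      ((F ∣[k] γ) τ) ^ n +
        ∑ m ∈ Finset.range n, c m τ * ((F ∣[k] γ) τ) ^ (n - (m + 1)) = 0 := by
    intro γ τ
    have h := monic_slash n F e he γ
    rw [hroot, SlashAction.zero_slash, monic_split n e he0] at h
    simpa [hc] using (congrFun h τ).symm
  have hbdd : ∀ γ : SL(2, ℤ), IsBoundedAtImInfty (F ∣[k] γ) := by
    intro γ
    rw [isBoundedAtImInfty_iff]
    have hb : IsBoundedAtImInfty (fun τ => 1 + ∑ m ∈ Finset.range n, ‖c m τ‖) := by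
      refine (atImInfty.const_boundedAtFilter (1 : ℝ)).add ?_
      exact Asymptotics.IsBigO.fun_sum fun m _ =>
        (((hneg (m + 1)).isQ_left.mul (he (m + 1)).isQ).bdd).norm_left
    obtain ⟨M, A, hMA⟩ := isBoundedAtImInfty_iff.1 hb
    exact ⟨M, A, fun τ hτ => ((norm_root_le (hrootγ γ τ)).trans (le_abs_self _)).trans (hMA τ hτ)⟩
  have hinv : ∀ γ ∈ Gamma0 N, F ∣[k] γ = F := by
    intro γ hγ
    set W : ℤ := ((n - 1 : ℕ) : ℤ) * 12
    have hnγ : num ∣[k + W] γ = num := by
      rw [hnum, sum_coeff_slash n p hp γ, hG.slash γ hγ]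
    have hdγ : den ∣[W] γ = den := by
      have hd' : ∀ m : ℕ, IsLevelOne (0 + (m : ℤ) * 12) (d m) := hd
      have := sum_coeff_slash (G := G) (k := 0) (w := 12) n d hd' γ
      rw [zero_add, hG.slash γ hγ] at this
      exact this
    have h2 := congrArg (· ∣[k + W] γ) hFden
    simp only [ModularForm.mul_slash_SL2, hdγ, hnγ] at h2
    have h3 : (F ∣[k] γ - F) * den = 0 := by rw [sub_mul, h2, hFden, sub_self]
    exact sub_eq_zero.1 (((UpperHalfPlane.mul_eq_zero_iff ((mdiff_slash_SL hFm γ).sub hFm)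
      tden.isQ_right.holo).1 h3).resolve_right hden0)
  have hF : IsForm N k F := ⟨hFm, hinv, hbdd⟩
  refine ⟨F, hF, ⟨hf.isQ, hF.isQ, ?_⟩, fun h0 γ => ?_⟩
  · refine mul_right_cancel₀ (b := qExp den) ?_ ?_
    · rwa [Ne, qExp_eq_zero_iff tden.isQ_right]
    · rw [← qExp_mul hF.isQ tden.isQ_right, hFden, tnum.qExp_eq,
        qExp_mul hf.isQ tden.isQ_left, map_mul, tden.qExp_eq]
  · have hz0 : ∀ m, m < n → IsZeroAtImInfty (c m) := by
      intro m _
      have hes : IsZeroAtImInfty (esymConj N k f (m + 1)) := by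
        have key : ∀ t ∈ (Finset.univ : Finset (Coset N)).powersetCard (m + 1),
            Tendsto (∏ q ∈ t, conj k f q) atImInfty (𝓝 0) := by
          intro t ht
          obtain ⟨q, hq⟩ : t.Nonempty :=
            Finset.card_pos.1 (by rw [(Finset.mem_powersetCard.1 ht).2]; omega)
          rw [← Finset.mul_prod_erase t _ hq]
          exact (h0 _).mul_boundedAtFilter (bdd_prod _ fun i _ => bdd_conj hf i)
        have := tendsto_finsetSum _ key
        rw [esymConj, esymm, IsZeroAtImInfty, ZeroAtFilter]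
        simpa [Finset.sum_fn] using this
      have hl := (esymConj_levelOne hf (m + 1))
      have hcoeff : (qExp (esymConj N k f (m + 1))).coeff 0 = 0 := by
        rw [qExpansion_coeff_zero one_pos hl.isQ.analyticAt (by simpa using hl.isQ.periodic)]
        exact hes.valueAtInfty_eq_zero
      have hce : (qExp (e (m + 1))).coeff 0 = 0 := by
        rw [(het (m + 1)).qExp_eq, PowerSeries.coeff_map, hcoeff, map_zero]
      have hQ := (he (m + 1)).isQ
      have hze : IsZeroAtImInfty (e (m + 1)) := by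
        have ht : Tendsto (fun τ : ℍ => e (m + 1) τ) atImInfty
            (𝓝 (cuspFunction 1 (e (m + 1)) 0)) := by
          have h := hQ.analyticAt.continuousAt.tendsto.comp (qParam_tendsto_atImInfty one_pos)
          refine h.congr fun τ => ?_
          exact eq_cuspFunction τ one_ne_zero (by simpa using hQ.periodic)
        have hz : cuspFunction 1 (e (m + 1)) 0 = 0 := by
          rw [cuspFunction_apply_zero one_pos hQ.analyticAt (by simpa using hQ.periodic),
            ← qExpansion_coeff_zero one_pos hQ.analyticAt (by simpa using hQ.periodic)]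
          exact hce
        rwa [hz] at ht
      simp only [hc, neg_one_pow_mul]
      exact ZeroAtFilter.smul _ hze
    rw [IsZeroAtImInfty, ZeroAtFilter, Metric.tendsto_nhds]
    intro ε hε
    have hs : Tendsto (fun τ => ∑ m ∈ Finset.range n, ‖c m τ‖ / ε ^ (m + 1)) atImInfty (𝓝 0) := by
      have hd : ∀ m ∈ Finset.range n,
          Tendsto (fun τ => ‖c m τ‖ / ε ^ (m + 1)) atImInfty (𝓝 0) := fun m hm => by
        simpa using (hz0 m (Finset.mem_range.1 hm)).norm.div_const (ε ^ (m + 1))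
      simpa using tendsto_finsetSum _ hd
    filter_upwards [hs.eventually_lt_const one_pos] with τ hτ
    simpa [dist_eq_norm] using norm_root_lt hε (hrootγ γ τ) hτ

/-- Bundled version for cusp forms. -/
theorem exists_cuspForm_twist (σ : ℂ →+* ℂ) (f : CuspForm (Gamma0 N) k) :
    ∃ g : CuspForm (Gamma0 N) k, qExpansion 1 g = (qExpansion 1 f).map σ := by
  obtain ⟨g, hg, ht, h0⟩ := exists_twist_form σ (isForm_cuspForm f)
  exact ⟨hg.toCuspForm (h0 (zeroAtImInfty_cuspForm f)), ht.qExp_eq⟩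

end Fermat.Agent.MFCore
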