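import Mathlib
import Fermat.Agent.LevelOne.IntegralBasis

/-!
# Bounded denominators: `ℤ⟦q⟧` is completely integrally closed
-/

noncomputable section

set_option autoImplicit false

namespace Fermat.Agent.MFCore

open PowerSeries LevelOne

/-- The complex numbers that are rational integers. -/
def IsInt (z : ℂ) : Prop := ∃ m : ℤ, z = (m : ℂ)

/-- The complex numbers that are rational. -/
def IsRat (z : ℂ) : Prop := ∃ r : ℚ, z = (r : ℂ)

/-- Series with rational coefficients. -/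
def RatSeries (p : PowerSeries ℂ) : Prop := ∀ n, IsRat (p.coeff n)

lemma mem_intSeries {p : PowerSeries ℂ} : p ∈ intSeries ↔ ∀ n, IsInt (p.coeff n) :=
  mem_intSeries_iff

lemma C_int_mem (m : ℤ) : PowerSeries.C (m : ℂ) ∈ intSeries := by
  rw [map_intCast]
  exact intCast_mem intSeries m

lemma eq_zero_of_mul_pow_isInt {r : ℚ} {z : ℂ} (hz : IsInt z) (hr : r.den ≠ 1)
    (h : ∀ j : ℕ, IsInt ((r : ℂ) ^ j * z)) : z = 0 := by
  obtain ⟨m, rfl⟩ := hz
  by_contra hm
  have hm' : m ≠ 0 := by simpa using hm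
  have hdvd : ∀ j : ℕ, (r.den : ℤ) ^ j ∣ m := by
    intro j
    obtain ⟨t, ht⟩ := h j
    have : (r.num : ℂ) ^ j * m = (r.den : ℂ) ^ j * t := by
      rw [← ht, Rat.cast_def, div_pow, ← mul_assoc,
        mul_div_cancel₀ _ (pow_ne_zero _ (Nat.cast_ne_zero.2 r.den_nz))]
    have h' : r.num ^ j * m = (r.den : ℤ) ^ j * t := by exact_mod_cast this
    exact ((Rat.isCoprime_num_den r).symm.pow).dvd_of_dvd_mul_left ⟨t, h'⟩
  have h2 : 2 ≤ r.den := by
    have := r.den_pos
    omega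
  have h3 := Int.le_of_dvd (abs_pos.2 hm') ((dvd_abs _ _).2 (hdvd m.natAbs))
  have h4 : m.natAbs < r.den ^ m.natAbs := Nat.lt_pow_self h2
  have h5 : (m.natAbs : ℤ) < (r.den : ℤ) ^ m.natAbs := by exact_mod_cast h4
  rw [Int.natCast_natAbs] at h5
  omega

/-- `ℤ⟦q⟧` is completely integrally closed in `ℚ⟦q⟧`. -/
theorem mem_intSeries_of_pow_mul_mem {y c : PowerSeries ℂ} (hy : RatSeries y) (hc0 : c ≠ 0)
    (h : ∀ j : ℕ, y ^ j * c ∈ intSeries) : y ∈ intSeries := by
  rw [mem_intSeries]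
  intro i
  induction i using Nat.strong_induction_on with
  | h i ih =>
    by_contra hni
    obtain ⟨r, hr⟩ := hy i
    have hden : r.den ≠ 1 := fun hd => hni ⟨r.num, by rw [hr, Rat.cast_def, hd]; simp⟩
    have hc : c ∈ intSeries := by simpa using h 0
    set y₀ : PowerSeries ℂ := PowerSeries.mk fun n => if n < i then y.coeff n else 0 with hy₀
    have hy₀m : y₀ ∈ intSeries := by
      rw [mem_intSeries]
      intro n
      rw [hy₀, coeff_mk]
      split_ifs with hn
      · exact ih n hn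
      · exact ⟨0, by simp⟩
    obtain ⟨u, hu⟩ : (PowerSeries.X ^ i : PowerSeries ℂ) ∣ y - y₀ := by
      rw [X_pow_dvd_iff]
      intro n hn
      simp [hy₀, hn]
    have hu0 : u.coeff 0 = (r : ℂ) := by
      have h1 := congrArg (PowerSeries.coeff i) hu
      simpa [hy₀, hr, coeff_X_pow_mul'] using h1.symm
    have hshift : ∀ j : ℕ, u ^ j * c ∈ intSeries := by
      intro j
      have h1 : (y - y₀) ^ j * c ∈ intSeries := by
        rw [sub_eq_add_neg, add_pow, Finset.sum_mul]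
        refine Subring.sum_mem _ fun l _ => ?_
        rw [show y ^ l * (-y₀) ^ (j - l) * (j.choose l : PowerSeries ℂ) * c =
          (y ^ l * c) * (-y₀) ^ (j - l) * (j.choose l : PowerSeries ℂ) by ring]
        exact mul_mem (mul_mem (h l) (pow_mem (neg_mem hy₀m) _)) (natCast_mem _ _)
      rw [hu, mul_pow, ← pow_mul, mul_assoc, mem_intSeries] at h1
      rw [mem_intSeries]
      intro n
      have h2 := h1 (n + i * j)
      rwa [coeff_X_pow_mul] at h2
    set o := c.order.toNat with ho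
    have hco : c.coeff o ≠ 0 := coeff_order hc0
    refine hco (eq_zero_of_mul_pow_isInt (mem_intSeries.1 hc o) hden fun j => ?_)
    have h2 := mem_intSeries.1 (hshift j) o
    rwa [coeff_mul, Finset.sum_eq_single (0, o), coeff_zero_eq_constantCoeff, map_pow,
      ← coeff_zero_eq_constantCoeff_apply, hu0] at h2
    · rintro ⟨a, b⟩ hab hne
      rw [Finset.HasAntidiagonal.mem_antidiagonal] at hab
      simp only at hab ⊢
      have hb : b < o := by
        by_contra hb
        exact hne (by ext <;> simp <;> omega)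
      rw [coeff_of_lt_order_toNat b hb, mul_zero]
    · simp

/-- A root of a monic equation over `ℤ⟦q⟧` lying in the fraction field is in `ℤ⟦q⟧`. -/
theorem mem_intSeries_of_monic {n : ℕ} {y D : PowerSeries ℂ} {a : ℕ → PowerSeries ℂ}
    (hy : RatSeries y) (hD : D ∈ intSeries) (hD0 : D ≠ 0) (hyD : y * D ∈ intSeries)
    (ha : ∀ m, m < n → a m ∈ intSeries)
    (h : y ^ n + ∑ m ∈ Finset.range n, a m * y ^ (n - (m + 1)) = 0) : y ∈ intSeries := by
  refine mem_intSeries_of_pow_mul_mem hy (pow_ne_zero n hD0) fun j => ?_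
  induction j using Nat.strong_induction_on with
  | h j ih =>
    rcases lt_or_ge j n with hj | hj
    · rw [show D ^ n = D ^ j * D ^ (n - j) by rw [← pow_add]; congr 1; omega,
        ← mul_assoc, ← mul_pow]
      exact mul_mem (pow_mem hyD _) (pow_mem hD _)
    · have e : y ^ j * D ^ n = y ^ (j - n) * D ^ n * y ^ n := by
        rw [mul_right_comm, ← pow_add]; congr 2; omega
      rw [e, eq_neg_of_add_eq_zero_left h, mul_neg, Finset.mul_sum]
      refine neg_mem (Subring.sum_mem _ fun m hm => ?_)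
      have hm' := Finset.mem_range.1 hm
      rw [show y ^ (j - n) * D ^ n * (a m * y ^ (n - (m + 1))) =
        a m * (y ^ (j - n) * y ^ (n - (m + 1)) * D ^ n) by ring, ← pow_add]
      exact mul_mem (ha m hm') (ih _ (by omega))

/-- Bounded denominators. -/
def BddDen (p : PowerSeries ℂ) : Prop :=
  ∃ M : ℤ, M ≠ 0 ∧ PowerSeries.C (M : ℂ) * p ∈ intSeries

lemma bddDen_of_mem {p : PowerSeries ℂ} (hp : p ∈ intSeries) : BddDen p :=
  ⟨1, one_ne_zero, by simpa using hp⟩

lemma BddDen.add {p q : PowerSeries ℂ} (hp : BddDen p) (hq : BddDen q) : BddDen (p + q) := by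
  obtain ⟨M, hM, hp⟩ := hp
  obtain ⟨M', hM', hq⟩ := hq
  refine ⟨M * M', mul_ne_zero hM hM', ?_⟩
  rw [Int.cast_mul, map_mul,
    show PowerSeries.C (M : ℂ) * PowerSeries.C (M' : ℂ) * (p + q) =
      PowerSeries.C (M' : ℂ) * (PowerSeries.C (M : ℂ) * p) +
        PowerSeries.C (M : ℂ) * (PowerSeries.C (M' : ℂ) * q) by ring]
  exact add_mem (mul_mem (C_int_mem M') hp) (mul_mem (C_int_mem M) hq)

lemma BddDen.mul {p q : PowerSeries ℂ} (hp : BddDen p) (hq : BddDen q) : BddDen (p * q) := by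
  obtain ⟨M, hM, hp⟩ := hp
  obtain ⟨M', hM', hq⟩ := hq
  refine ⟨M * M', mul_ne_zero hM hM', ?_⟩
  rw [Int.cast_mul, map_mul, mul_mul_mul_comm]
  exact mul_mem hp hq

lemma bddDen_C_rat (r : ℚ) : BddDen (PowerSeries.C (r : ℂ)) :=
  ⟨r.den, by exact_mod_cast r.den_nz, by
    rw [← map_mul, show ((r.den : ℤ) : ℂ) * (r : ℂ) = ((r.num : ℤ) : ℂ) by
      rw [Int.cast_natCast, Rat.cast_def,
        mul_div_cancel₀ _ (Nat.cast_ne_zero.2 r.den_nz)]]
    exact C_int_mem _⟩

lemma bddDen_sum {ι : Type*} (s : Finset ι) {f : ι → PowerSeries ℂ} (h : ∀ i ∈ s, BddDen (f i)) :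
    BddDen (∑ i ∈ s, f i) :=
  Finset.sum_induction f BddDen (fun _ _ h h' => h.add h') (bddDen_of_mem (zero_mem _)) h

/-- A root, in the fraction field, of a monic equation with bounded denominators has bounded
denominators. -/
theorem bddDen_of_monic {n : ℕ} {y D : PowerSeries ℂ} {a : ℕ → PowerSeries ℂ}
    (hy : RatSeries y) (hD : BddDen D) (hD0 : D ≠ 0) (hyD : BddDen (y * D))
    (ha : ∀ m, m < n → BddDen (a m))
    (h : y ^ n + ∑ m ∈ Finset.range n, a m * y ^ (n - (m + 1)) = 0) : BddDen y := by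
  obtain ⟨A, hA, hDA⟩ := hD
  obtain ⟨B, hB, hyB⟩ := hyD
  have : ∀ m, ∃ M : ℤ, M ≠ 0 ∧ (m < n → PowerSeries.C (M : ℂ) * a m ∈ intSeries) := by
    intro m
    by_cases hm : m < n
    · obtain ⟨M, hM, hM'⟩ := ha m hm
      exact ⟨M, hM, fun _ => hM'⟩
    · exact ⟨1, one_ne_zero, fun h => absurd h hm⟩
  choose M hM0 hM using this
  set L : ℤ := ∏ m ∈ Finset.range n, M m with hL
  have hL0 : L ≠ 0 := Finset.prod_ne_zero_iff.2 fun m _ => hM0 m
  refine ⟨L, hL0, ?_⟩
  set l : PowerSeries ℂ := PowerSeries.C (L : ℂ) with hl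
  refine mem_intSeries_of_monic (n := n) (y := l * y)
    (D := PowerSeries.C (B : ℂ) * (PowerSeries.C (A : ℂ) * D))
    (a := fun m => l ^ (m + 1) * a m) ?_ (mul_mem (C_int_mem B) hDA) ?_ ?_ ?_ ?_
  · intro i
    obtain ⟨r, hr⟩ := hy i
    exact ⟨L * r, by rw [hl, coeff_C_mul, hr]; push_cast; rfl⟩
  · have : ∀ z : ℤ, z ≠ 0 → PowerSeries.C (z : ℂ) ≠ 0 := fun z hz => by
      rw [Ne, map_eq_zero_iff _ PowerSeries.C_injective]
      simpa using hz
    exact mul_ne_zero (this B hB) (mul_ne_zero (this A hA) hD0)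
  · rw [show l * y * (PowerSeries.C (B : ℂ) * (PowerSeries.C (A : ℂ) * D)) =
      l * PowerSeries.C (A : ℂ) * (PowerSeries.C (B : ℂ) * (y * D)) by ring]
    exact mul_mem (mul_mem (C_int_mem L) (C_int_mem A)) hyB
  · intro m hm
    obtain ⟨t, ht⟩ := Finset.dvd_prod_of_mem M (Finset.mem_range.2 hm)
    rw [show l ^ (m + 1) * a m = l ^ m * (l * a m) by ring]
    refine mul_mem (pow_mem (C_int_mem L) _) ?_
    rw [hl, hL, ht, Int.cast_mul, map_mul, mul_assoc, mul_left_comm]
    exact mul_mem (C_int_mem t) (hM m hm)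
  · rw [mul_pow]
    have e : ∀ m ∈ Finset.range n,
        l ^ (m + 1) * a m * (l * y) ^ (n - (m + 1)) = l ^ n * (a m * y ^ (n - (m + 1))) := by
      intro m hm
      have := Finset.mem_range.1 hm
      conv_rhs => rw [show n = (m + 1) + (n - (m + 1)) by omega, pow_add]
      simp only [show (m + 1) + (n - (m + 1)) - (m + 1) = n - (m + 1) by omega]
      ring
    rw [Finset.sum_congr rfl e, ← Finset.mul_sum, ← mul_add, h, mul_zero]

/-- Apply a `ℚ`-linear functional to each coefficient. -/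
def applyCoeff (φ : ℂ →ₗ[ℚ] ℚ) : PowerSeries ℂ →+ PowerSeries ℂ where
  toFun p := PowerSeries.mk fun n => (φ (p.coeff n) : ℂ)
  map_zero' := by ext n; simp
  map_add' p q := by ext n; simp

lemma coeff_applyCoeff (φ : ℂ →ₗ[ℚ] ℚ) (p : PowerSeries ℂ) (n : ℕ) :
    (applyCoeff φ p).coeff n = (φ (p.coeff n) : ℂ) := by simp [applyCoeff]

lemma applyCoeff_mul_rat (φ : ℂ →ₗ[ℚ] ℚ) (p : PowerSeries ℂ) {r : PowerSeries ℂ}
    (hr : RatSeries r) : applyCoeff φ (p * r) = applyCoeff φ p * r := by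
  ext n
  rw [coeff_applyCoeff, coeff_mul, coeff_mul, map_sum, Rat.cast_sum]
  refine Finset.sum_congr rfl fun ab _ => ?_
  obtain ⟨t, ht⟩ := hr ab.2
  rw [coeff_applyCoeff, ht, show p.coeff ab.1 * (t : ℂ) = t • p.coeff ab.1 by
    rw [Rat.smul_def, mul_comm], map_smul, smul_eq_mul, Rat.cast_mul, mul_comm]

lemma ratSeries_of_mem {p : PowerSeries ℂ} (hp : p ∈ intSeries) : RatSeries p := fun n => by
  obtain ⟨m, hm⟩ := mem_intSeries.1 hp n
  exact ⟨m, by simp [hm]⟩

lemma RatSeries.mul {p q : PowerSeries ℂ} (hp : RatSeries p) (hq : RatSeries q) :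
    RatSeries (p * q) := fun n => by
  choose a ha using hp
  choose b hb using hq
  exact ⟨∑ x ∈ Finset.HasAntidiagonal.antidiagonal n, a x.1 * b x.2, by simp [coeff_mul, ha, hb]⟩

lemma RatSeries.pow {p : PowerSeries ℂ} (hp : RatSeries p) (j : ℕ) : RatSeries (p ^ j) := by
  induction j with
  | zero => simpa using ratSeries_of_mem (one_mem intSeries)
  | succ j ih => rw [pow_succ]; exact ih.mul hp

lemma exists_dual_eq_one {c : ℂ} (hc : c ≠ 0) : ∃ φ : ℂ →ₗ[ℚ] ℚ, φ c = 1 := by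
  obtain ⟨φ, hφ⟩ : ∃ φ : ℂ →ₗ[ℚ] ℚ, φ c ≠ 0 := by
    by_contra h
    push Not at h
    exact hc ((Module.forall_dual_apply_eq_zero_iff ℚ c).1 h)
  exact ⟨(φ c)⁻¹ • φ, by simp [hφ]⟩

/-- The image of a combination of integral series under a coefficient functional. -/
lemma bddDen_applyCoeff_C_mul (φ : ℂ →ₗ[ℚ] ℚ) (c : ℂ) {b : PowerSeries ℂ} (hb : b ∈ intSeries) :
    BddDen (applyCoeff φ (PowerSeries.C c * b)) := by
  rw [applyCoeff_mul_rat φ _ (ratSeries_of_mem hb)]
  refine BddDen.mul ?_ (bddDen_of_mem hb)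
  have : applyCoeff φ (PowerSeries.C c) = PowerSeries.C ((φ c : ℚ) : ℂ) := by
    ext n
    rw [coeff_applyCoeff, coeff_C, coeff_C]
    split_ifs <;> simp
  rw [this]
  exact bddDen_C_rat _

end Fermat.Agent.MFCore
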