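import Mathlib
import Fermat.Prelude.Def_CuspForm_IntegralStructure
import Fermat.Prelude.Thm_ModularForm_sturm_bound_Gamma0
import Fermat.Agent.MFCore.Galois
import Fermat.Agent.MFCore.IntSeries
import Fermat.Agent.LevelOne.AutC

/-!
# `S_k(Γ₀(N))` has a basis with integral `q`-expansions
-/

noncomputable section

set_option autoImplicit false

namespace Fermat.Agent.MFCore

open UpperHalfPlane Complex Filter Topology Function CongruenceSubgroup
open scoped Manifold MatrixGroups ModularForm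

variable {N : ℕ} [NeZero N] {k : ℤ} {f : ℍ → ℂ}

lemma qExp_neg_one_pow (m : ℕ) : qExp ((-1 : ℍ → ℂ) ^ m) = (-1) ^ m := by
  rw [qExp_pow isQ_one.neg, qExp_neg isQ_one, qExp_one]

lemma levelOne_bddDen_applyCoeff (φ : ℂ →ₗ[ℚ] ℚ) {F : ℍ → ℂ} (hF : IsLevelOne k F) :
    BddDen (applyCoeff φ (qExp F)) := by
  suffices ∀ g : ModularForm 𝒮ℒ k, BddDen (applyCoeff φ (qExp g)) from this hF.toModularForm
  intro g
  have hg : g ∈ Submodule.span ℂ (LevelOne.intForms k) := by rw [LevelOne.span_intForms]; trivial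
  suffices H : ∀ c : ℂ, BddDen (applyCoeff φ (PowerSeries.C c * qExp g)) by simpa using H 1
  induction hg using Submodule.span_induction with
  | mem x hx => exact fun c => bddDen_applyCoeff_C_mul φ c hx
  | zero =>
    intro c
    simp only [FunLike.coe_zero, qExp_zero, mul_zero, map_zero]
    exact bddDen_of_mem (zero_mem _)
  | add x y _ _ hx hy =>
    intro c
    rw [FunLike.coe_add, qExp_add (isLevelOne_modularForm x).isQ
      (isLevelOne_modularForm y).isQ, mul_add, map_add]
    exact (hx c).add (hy c)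
  | smul a x _ hx =>
    intro c
    rw [FunLike.coe_smul, qExp_smul (isLevelOne_modularForm x).isQ,
      PowerSeries.smul_eq_C_mul, ← mul_assoc, ← map_mul]
    exact hx _

lemma qExp_deltaN_mem : qExp (deltaN N) ∈ LevelOne.intSeries :=
  mem_intSeries.2 deltaN_coeff_int

/-- Rational `q`-expansion implies bounded denominators. -/
theorem bddDen_of_ratSeries (hf : IsForm N k f) (hrat : RatSeries (qExp f)) :
    BddDen (qExp f) := by
  set n := Fintype.card (Coset N) with hn
  set G := deltaN N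
  have hG : IsForm N 12 G := deltaN_isForm
  have hGrat : ∀ j : ℕ, RatSeries (qExp G ^ j) := (ratSeries_of_mem qExp_deltaN_mem).pow
  -- numerator and denominator
  have hsum : ∀ {k' : ℤ} {h : ℍ → ℂ}, IsForm N k' h →
      qExp (h * conjDiffProd N 12 G) = ∑ m ∈ Finset.range n,
        (-1) ^ m * qExp (interpConj N k' 12 h G m) * qExp G ^ (n - 1 - m) := by
    intro k' h hh
    have hQ : ∀ m, IsQ ((-1 : ℍ → ℂ) ^ m * interpConj N k' 12 h G m) :=
      fun m => (isQ_one.neg.pow m).mul (interpConj_levelOne hh hG m).isQ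
    rw [← interpConj_eval hh.slash hG.slash,
      qExp_sum _ fun m _ => (hQ m).mul (hG.isQ.pow _)]
    refine Finset.sum_congr rfl fun m _ => ?_
    rw [qExp_mul (hQ m) (hG.isQ.pow _), qExp_pow hG.isQ,
      qExp_mul (isQ_one.neg.pow m) (interpConj_levelOne hh hG m).isQ, qExp_neg_one_pow]
  have hD : IsQ (conjDiffProd N 12 G) := by
    have h1 : IsForm N 0 (1 : ℍ → ℂ) :=
      ⟨mdifferentiable_const, fun γ _ => ModularForm.is_invariant_one γ,
        fun γ => by rw [ModularForm.is_invariant_one]; exact atImInfty.const_boundedAtFilter 1⟩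
    have he := interpConj_eval (k := 0) h1.slash hG.slash
    rw [one_mul] at he
    rw [← he]
    exact isQ_sum _ fun m _ => ((isQ_one.neg.pow m).mul (interpConj_levelOne h1 hG m).isQ).mul
      (hG.isQ.pow _)
  have hbd : ∀ {k' : ℤ} {h : ℍ → ℂ}, IsForm N k' h → ∀ φ : ℂ →ₗ[ℚ] ℚ,
      BddDen (applyCoeff φ (qExp (h * conjDiffProd N 12 G))) := by
    intro k' h hh φ
    rw [hsum hh, map_sum]
    refine bddDen_sum _ fun m _ => ?_
    rw [mul_comm ((-1 : PowerSeries ℂ) ^ m), mul_assoc]
    have hr : RatSeries ((-1 : PowerSeries ℂ) ^ m * qExp G ^ (n - 1 - m)) :=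
      (ratSeries_of_mem (pow_mem (neg_mem (one_mem _)) m)).mul (hGrat _)
    rw [applyCoeff_mul_rat φ _ hr]
    exact (levelOne_bddDen_applyCoeff φ (interpConj_levelOne hh hG m)).mul
      (bddDen_of_mem (mul_mem (pow_mem (neg_mem (one_mem _)) m) (pow_mem qExp_deltaN_mem _)))
  have hD0 : qExp (conjDiffProd N 12 G) ≠ 0 := by
    rw [Ne, qExp_eq_zero_iff hD]
    exact conjDiffProd_ne_zero hG conj_deltaN_injective
  obtain ⟨i, hi⟩ : ∃ i, (qExp (conjDiffProd N 12 G)).coeff i ≠ 0 := by
    by_contra h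
    push Not at h
    exact hD0 (PowerSeries.ext fun i => by simpa using h i)
  obtain ⟨φ, hφ⟩ := exists_dual_eq_one hi
  obtain ⟨ψ, hψ⟩ := exists_dual_eq_one (one_ne_zero (α := ℂ))
  have h1 : IsForm N 0 (1 : ℍ → ℂ) :=
    ⟨mdifferentiable_const, fun γ _ => ModularForm.is_invariant_one γ,
      fun γ => by rw [ModularForm.is_invariant_one]; exact atImInfty.const_boundedAtFilter 1⟩
  refine bddDen_of_monic (n := n)
    (D := applyCoeff φ (qExp (conjDiffProd N 12 G)))
    (a := fun m => (-1) ^ (m + 1) * applyCoeff ψ (qExp (esymConj N k f (m + 1))))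
    hrat ?_ ?_ ?_ ?_ ?_
  · have := hbd h1 φ
    rwa [one_mul] at this
  · intro h0
    have := congrArg (PowerSeries.coeff i) h0
    simp [coeff_applyCoeff, hφ] at this
  · have := hbd hf φ
    rwa [qExp_mul hf.isQ hD, mul_comm, applyCoeff_mul_rat φ _ hrat, mul_comm] at this
  · exact fun m _ => (bddDen_of_mem (pow_mem (neg_mem (one_mem _)) _)).mul
      (levelOne_bddDen_applyCoeff ψ (esymConj_levelOne hf (m + 1)))
  · have h0 := congrArg (fun F => applyCoeff ψ (qExp F)) (esymConj_eval (N := N) hf.slash)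
    have hQ : ∀ m, IsQ ((-1 : ℍ → ℂ) ^ m * esymConj N k f m) :=
      fun m => (isQ_one.neg.pow m).mul (esymConj_levelOne hf m).isQ
    simp only [qExp_zero, map_zero] at h0
    rw [qExp_sum _ fun m _ => (hQ m).mul (hf.isQ.pow _), map_sum] at h0
    rw [← h0, Finset.sum_range_succ', add_comm]
    refine congrArg₂ (· + ·) (Finset.sum_congr rfl fun m _ => ?_) ?_
    · rw [qExp_mul (hQ _) (hf.isQ.pow _), qExp_pow hf.isQ,
        applyCoeff_mul_rat ψ _ (hrat.pow _),
        qExp_mul (isQ_one.neg.pow _) (esymConj_levelOne hf _).isQ, qExp_neg_one_pow]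
      congr 1
      conv_rhs => rw [mul_comm, applyCoeff_mul_rat ψ _
        (ratSeries_of_mem (pow_mem (neg_mem (one_mem _)) _)), mul_comm]
    · rw [esymConj, esymm_zero, pow_zero, one_mul, one_mul, Nat.sub_zero, qExp_pow hf.isQ,
        show (qExp f) ^ n = 1 * qExp f ^ n by rw [one_mul],
        applyCoeff_mul_rat ψ _ (hrat.pow _)]
      congr 1
      ext j
      rw [coeff_applyCoeff, PowerSeries.coeff_one]
      split_ifs with hj
      · simp [hψ]
      · simp

/-- The `q`-coefficient map. -/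
def qCoeffMap (N : ℕ) [NeZero N] (k : ℤ) : CuspForm (Gamma0 N) k →ₗ[ℂ] (ℕ → ℂ) where
  toFun f n := (qExp f).coeff n
  map_add' f g := by
    funext n
    simp [FunLike.coe_add, qExp_add (isForm_cuspForm f).isQ (isForm_cuspForm g).isQ]
  map_smul' c f := by
    funext n
    simp [FunLike.coe_smul, qExp_smul (isForm_cuspForm f).isQ]

lemma qCoeffMap_injective : Function.Injective (qCoeffMap N k) := fun f g h => by
  apply DFunLike.coe_injective
  exact qExp_inj (isForm_cuspForm f).isQ (isForm_cuspForm g).isQ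
    (PowerSeries.ext fun n => congrFun h n)

theorem finiteDimensional_cuspForm_Gamma0 (N : ℕ) [NeZero N] (k : ℤ) :
    FiniteDimensional ℂ (CuspForm (Gamma0 N) k) := by
  set B := (k * (Gamma0 N).index).toNat / 12
  let T : CuspForm (Gamma0 N) k →ₗ[ℂ] (Fin (B + 1) → ℂ) :=
    (LinearMap.funLeft ℂ ℂ (fun i : Fin (B + 1) => (i : ℕ))).comp (qCoeffMap N k)
  refine FiniteDimensional.of_injective T ?_
  rw [injective_iff_map_eq_zero]
  intro f hf
  have h := ModularForm.sturm_bound_Gamma0 N (ModularFormClass.modularForm f) fun n hn => by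
    have := congrFun hf ⟨n, Nat.lt_succ_of_le hn⟩
    exact this
  apply DFunLike.coe_injective
  exact congrArg (fun F : ModularForm (Gamma0 N) k => (F : ℍ → ℂ)) h

/-- `S_k(Γ₀(N))` has an integral structure. -/
theorem hasIntegralStructure (N : ℕ) [NeZero N] (k : ℤ) : CuspForm.HasIntegralStructure N k := by
  have := finiteDimensional_cuspForm_Gamma0 N k
  set V := LinearMap.range (qCoeffMap N k)
  have hV : ∀ σ : ℂ ≃+* ℂ, ∀ v ∈ V, (fun i => σ (v i)) ∈ V := by
    rintro σ _ ⟨f, rfl⟩
    obtain ⟨g, hg⟩ := exists_cuspForm_twist σ.toRingHom f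
    exact ⟨g, funext fun i => congrArg (PowerSeries.coeff i) hg⟩
  rw [CuspForm.HasIntegralStructure, Submodule.eq_top_iff']
  intro f
  set S : Submodule ℂ (CuspForm (Gamma0 N) k) :=
    Submodule.span ℂ ((CuspForm.intLattice N k : Submodule ℤ (CuspForm (Gamma0 N) k)) :
      Set (CuspForm (Gamma0 N) k))
  have h1 := LevelOne.le_span_rat_vectors V hV ⟨f, rfl⟩
  have h2 : Submodule.span ℂ {v | v ∈ V ∧ ∀ i, ∃ r : ℚ, v i = (r : ℂ)} ≤
      S.map (qCoeffMap N k) := by
    rw [Submodule.span_le]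
    rintro _ ⟨⟨g, rfl⟩, hg⟩
    obtain ⟨M, hM, hMg⟩ := bddDen_of_ratSeries (isForm_cuspForm g) hg
    refine ⟨g, ?_, rfl⟩
    have hgM : ((M : ℂ) • g) ∈ CuspForm.intLattice N k := by
      refine Submodule.subset_span fun i => ?_
      obtain ⟨m, hm⟩ := mem_intSeries.1 hMg i
      refine ⟨m, ?_⟩
      rw [← hm, ModularFormClass.qCoeff, FunLike.coe_smul, PowerSeries.coeff_C_mul]
      change (qExp ((M : ℂ) • (g : ℍ → ℂ))).coeff i = _
      rw [qExp_smul (isForm_cuspForm g).isQ, PowerSeries.coeff_smul, smul_eq_mul]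
    rw [show g = (M : ℂ)⁻¹ • ((M : ℂ) • g) by rw [inv_smul_smul₀ (Int.cast_ne_zero.2 hM)]]
    exact Submodule.smul_mem _ _ (Submodule.subset_span hgM)
  obtain ⟨g, hg, hgf⟩ := h2 h1
  rwa [qCoeffMap_injective hgf] at hg

end Fermat.Agent.MFCore
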