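import Mathlib
import Fermat.Agent.MFCore.Lift
import Fermat.Agent.LevelOne.JFunction

/-!
# `j` and `j(Nτ)` generate the field of modular functions of level `Γ₀(N)`

Everything is stated as identities of functions on the upper half plane.
-/

noncomputable section

set_option autoImplicit false

namespace Fermat.Agent.MFCore

open UpperHalfPlane Complex Filter Topology Function CongruenceSubgroup EisensteinSeries
open scoped Manifold MatrixGroups ModularForm

local notation "Δ" => ModularForm.discriminant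

lemma IsQ.tendsto_coeff_zero {f : ℍ → ℂ} (hf : IsQ f) :
    Tendsto f atImInfty (𝓝 ((qExp f).coeff 0)) := by
  have hper : Periodic (f ∘ UpperHalfPlane.ofComplex) ((1 : ℝ) : ℂ) := by simpa using hf.periodic
  rw [qExpansion_coeff_zero one_pos hf.analyticAt hper,
    ← cuspFunction_apply_zero one_pos hf.analyticAt hper]
  exact (hf.analyticAt.continuousAt.tendsto.comp (qParam_tendsto_atImInfty one_pos)).congr
    fun τ => eq_cuspFunction τ one_ne_zero hper

lemma IsForm.mul {N : ℕ} {k k' : ℤ} {f g : ℍ → ℂ} (hf : IsForm N k f) (hg : IsForm N k' g) :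
    IsForm N (k + k') (f * g) :=
  ⟨hf.holo.mul hg.holo,
    fun γ hγ => by rw [ModularForm.mul_slash_SL2, hf.slash γ hγ, hg.slash γ hγ],
    fun γ => by rw [ModularForm.mul_slash_SL2]; exact (hf.bdd γ).mul (hg.bdd γ)⟩

lemma isForm_one (N : ℕ) : IsForm N 0 (1 : ℍ → ℂ) :=
  ⟨mdifferentiable_const, fun γ _ => ModularForm.is_invariant_one γ,
    fun γ => by rw [ModularForm.is_invariant_one]; exact atImInfty.const_boundedAtFilter 1⟩

lemma IsForm.pow {N : ℕ} {k : ℤ} {f : ℍ → ℂ} (hf : IsForm N k f) (n : ℕ) :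
    IsForm N ((n : ℤ) * k) (f ^ n) := by
  induction n with
  | zero => simpa using isForm_one N
  | succ n ih =>
    rw [show ((n + 1 : ℕ) : ℤ) * k = (n : ℤ) * k + k by push_cast; ring, pow_succ]
    exact ih.mul hf

lemma isLevelOne_E₄ : IsLevelOne 4 (ModularForm.E₄ : ℍ → ℂ) := isLevelOne_modularForm _

lemma jFun_eq : LevelOne.jFun = fun τ => ModularForm.E₄ τ ^ 3 / Δ τ := rfl

/-- A level-one form of weight `12u` is `Δ^u` times a polynomial in `j`. -/
theorem exists_poly_levelOne (u : ℕ) {F : ℍ → ℂ} (hF : IsLevelOne (12 * (u : ℤ)) F) :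
    ∃ p : Polynomial ℂ, ∀ τ, F τ = Δ τ ^ u * p.eval (LevelOne.jFun τ) := by
  induction u generalizing F with
  | zero =>
    let : ModularFormClass (ModularForm 𝒮ℒ (12 * ((0 : ℕ) : ℤ))) 𝒮ℒ 0 := by
      rw [Nat.cast_zero, mul_zero]; infer_instance
    obtain ⟨c, hc⟩ := ModularFormClass.levelOne_weight_zero_const hF.toModularForm
    exact ⟨Polynomial.C c, fun τ => by simpa using congrFun hc τ⟩
  | succ u ih =>
    set c := (qExp F).coeff 0 with hc
    have hE := ((isLevelOne_E₄.isForm 1).pow (3 * (u + 1)))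
    set g : ℍ → ℂ := F - c • (ModularForm.E₄ : ℍ → ℂ) ^ (3 * (u + 1)) with hg
    have hEl : IsLevelOne (12 * ((u + 1 : ℕ) : ℤ)) ((ModularForm.E₄ : ℍ → ℂ) ^ (3 * (u + 1))) := by
      have e : ((3 * (u + 1) : ℕ) : ℤ) * 4 = 12 * ((u + 1 : ℕ) : ℤ) := by push_cast; ring
      refine ⟨hE.holo, fun γ => ?_, by simpa using hE.bdd 1⟩
      rw [← e, pow_slash_SL, isLevelOne_E₄.slash]
    have hgl : IsLevelOne (12 * ((u + 1 : ℕ) : ℤ)) g :=
      ⟨hF.holo.sub (hEl.holo.const_smul c), fun γ => by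
        rw [hg, sub_eq_add_neg, SlashAction.add_slash, SlashAction.neg_slash,
          ModularForm.SL_smul_slash, hF.slash, hEl.slash],
        hF.bdd.sub (hEl.bdd.const_smul_left c)⟩
    have hg0 : (qExp g).coeff 0 = 0 := by
      rw [hg, qExp_sub hF.isQ (hEl.isQ.smul c), qExp_smul hEl.isQ, qExp_pow isLevelOne_E₄.isQ,
        map_sub, PowerSeries.coeff_smul, PowerSeries.coeff_zero_eq_constantCoeff_apply,
        PowerSeries.coeff_zero_eq_constantCoeff_apply, map_pow,
        ← PowerSeries.coeff_zero_eq_constantCoeff_apply,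
        ← PowerSeries.coeff_zero_eq_constantCoeff_apply]
      rw [show (qExp (ModularForm.E₄ : ℍ → ℂ)).coeff 0 = 1 from
        E_qExpansion_coeff_zero _ ⟨2, rfl⟩]
      simp [hc]
    set q := CuspForm.discriminantEquiv (ModularForm.toCuspForm hgl.toModularForm hg0) with hq
    have hqu : IsLevelOne (12 * (u : ℤ)) (q : ℍ → ℂ) := by
      have h := isLevelOne_modularForm
        (ModularForm.mcast (b := 12 * (u : ℤ)) (by push_cast; ring) q)
      rwa [ModularForm.coe_mcast] at h
    obtain ⟨p, hp⟩ := ih hqu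
    refine ⟨Polynomial.C c * Polynomial.X ^ (u + 1) + p, fun τ => ?_⟩
    have h1 : Δ τ * q τ = g τ := by
      rw [hq, ModularForm.discriminant_mul_discriminantEquiv_apply]
      rfl
    rw [hp τ] at h1
    simp only [hg, Pi.sub_apply, Pi.smul_apply, Pi.pow_apply, smul_eq_mul] at h1
    have hΔ := ModularForm.discriminant_ne_zero τ
    have hj : Δ τ ^ (u + 1) * LevelOne.jFun τ ^ (u + 1) = ModularForm.E₄ τ ^ (3 * (u + 1)) := by
      rw [jFun_eq, ← mul_pow, mul_div_cancel₀ _ hΔ, pow_mul]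
    simp only [Polynomial.eval_add, Polynomial.eval_mul, Polynomial.eval_C, Polynomial.eval_pow,
      Polynomial.eval_X]
    linear_combination -h1 - c * hj

section Level

variable (N : ℕ)

/-- `j(Nτ)`. -/
def jN : ℍ → ℂ := lift N LevelOne.jFun

/-- `Δ(τ)^N j(Nτ)`, a modular form of weight `12N`. -/
def jNForm : ℍ → ℂ := Δ ^ N * jN N

variable {N} [NeZero N]

lemma jN_slash_apply {γ : SL(2, ℤ)} (H : Hermite N γ) (τ : ℍ) :
    (jN N ∣[(0 : ℤ)] γ) τ = LevelOne.jFun (H.mat • τ) := by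
  rw [jN, H.lift_slash LevelOne.jFun_slash]
  simp

lemma jN_mdiff : MDiff (jN N) := by
  have h := MDifferentiable.slash LevelOne.mdifferentiable_jFun 0 (ModularForm.heckeDiagMatrix N)
  have hN : (N : ℂ) ^ (0 - 1 : ℤ) ≠ 0 := zpow_ne_zero _ (Nat.cast_ne_zero.2 (NeZero.ne N))
  have e : jN N = ((N : ℂ) ^ (0 - 1 : ℤ))⁻¹ •
      (LevelOne.jFun ∣[(0 : ℤ)] ModularForm.heckeDiagMatrix N) := by
    funext z
    rw [Pi.smul_apply, smul_eq_mul, ModularForm.slash_heckeDiagMatrix_apply 0 (NeZero.ne N),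
      inv_mul_cancel_left₀ hN]
    rfl
  rw [e]
  exact h.const_smul _

omit [NeZero N] in
lemma jN_eq_div : jN N = fun τ => lift N (ModularForm.E₄ : ℍ → ℂ) τ ^ 3 / deltaN N τ := rfl

lemma jN_slash_of_mem {γ : SL(2, ℤ)} (hγ : γ ∈ Gamma0 N) : jN N ∣[(0 : ℤ)] γ = jN N := by
  funext τ
  have h1 : (lift N (ModularForm.E₄ : ℍ → ℂ) ^ 3) ∣[((3 : ℕ) : ℤ) * 4] γ =
      lift N (ModularForm.E₄ : ℍ → ℂ) ^ 3 := by
    rw [pow_slash_SL, (lift_isForm isLevelOne_E₄).slash γ hγ]
  have hdiv : jN N = lift N (ModularForm.E₄ : ℍ → ℂ) ^ 3 / deltaN N := jN_eq_div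
  rw [hdiv, show (0 : ℤ) = ((3 : ℕ) : ℤ) * 4 - 12 by norm_num, ModularForm.div_slash_SL2, h1,
    deltaN_isForm.slash γ hγ]

omit [NeZero N] in
lemma jNForm_slash_apply (γ : SL(2, ℤ)) (τ : ℍ) :
    (jNForm N ∣[((N : ℤ) * 12)] γ) τ = Δ τ ^ N * (jN N ∣[(0 : ℤ)] γ) τ := by
  conv_lhs => rw [jNForm, show (N : ℤ) * 12 = (N : ℤ) * 12 + 0 by ring, ModularForm.mul_slash_SL2,
    pow_slash_SL, isLevelOne_discriminant.slash]
  rfl

theorem jNForm_isForm : IsForm N ((N : ℤ) * 12) (jNForm N) where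
  holo := (isLevelOne_discriminant.holo.pow N).mul jN_mdiff
  slash γ hγ := by
    funext τ
    rw [jNForm_slash_apply, jN_slash_of_mem hγ]
    rfl
  bdd γ := by
    obtain ⟨H⟩ := exists_hermite (N := N) γ
    have e : jNForm N ∣[((N : ℤ) * 12)] γ = fun τ => Δ τ ^ N * LevelOne.jFun (H.mat • τ) :=
      funext fun τ => by rw [jNForm_slash_apply, jN_slash_apply H]
    rw [e]
    -- `Δ(τ)^N = O(Δ(H τ))`
    have h1 : (fun τ => Δ τ ^ N) =O[atImInfty] fun τ => Δ (H.mat • τ) := by
      have a := (CuspFormClass.exp_decay_atImInfty (h := 1) CuspForm.discriminant one_pos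
        one_mem_strictPeriods_SL).pow N
      have b := ModularForm.exp_isBigO_discriminant.comp_tendsto H.tendsto_mat_smul
      refine a.trans (Asymptotics.IsBigO.trans ?_ b)
      refine Asymptotics.IsBigO.of_bound 1 ?_
      have hev : ∀ᶠ τ in atImInfty, (0 : ℝ) ≤ τ.im := Eventually.of_forall fun τ => τ.im_pos.le
      filter_upwards [hev] with τ hτ
      simp only [Function.comp_apply, Real.norm_eq_abs, Real.abs_exp, one_mul, H.im_mat_smul,
        ← Real.exp_nat_mul]
      apply Real.exp_le_exp.2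
      have hle : (H.g : ℝ) / H.d ≤ N := by
        rw [div_le_iff₀ (by exact_mod_cast H.d_pos)]
        exact_mod_cast (Nat.le_of_dvd (NeZero.pos N) (Dvd.intro _ H.mul_eq)).trans
          (Nat.le_mul_of_pos_right N H.d_pos)
      have h0 : 0 ≤ 2 * Real.pi * (((N : ℝ) - H.g / H.d) * τ.im) := by
        have := mul_nonneg (sub_nonneg.2 hle) hτ
        positivity
      rw [show (N : ℝ) * (-2 * Real.pi * τ.im / 1) = -2 * Real.pi * ((H.g : ℝ) / H.d * τ.im)
        - 2 * Real.pi * (((N : ℝ) - H.g / H.d) * τ.im) by ring]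
      linarith
    have h2 : IsBoundedAtImInfty fun τ => (ModularForm.E₄ : ℍ → ℂ) (H.mat • τ) ^ 3 :=
      (((isLevelOne_E₄.isQ.pow 3).bdd).comp_tendsto H.tendsto_mat_smul)
    have h3 : (fun τ => Δ τ ^ N * LevelOne.jFun (H.mat • τ)) =
        fun τ => Δ τ ^ N / Δ (H.mat • τ) * (ModularForm.E₄ : ℍ → ℂ) (H.mat • τ) ^ 3 := by
      funext τ
      rw [jFun_eq]
      ring
    rw [h3]
    exact (((Asymptotics.div_isBoundedUnder_of_isBigO h1).isBigO_one ℝ).mul h2).congr_right
      fun x => one_mul _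

/-- The stabiliser of `j(Nτ)` is `Γ₀(N)`. -/
theorem mem_Gamma0_of_jN_slash (γ : SL(2, ℤ)) (h : jN N ∣[(0 : ℤ)] γ = jN N) :
    γ ∈ Gamma0 N := by
  obtain ⟨H⟩ := exists_hermite (N := N) γ
  refine H.mem_Gamma0_of_isBigO (Asymptotics.IsBigO.of_bound 27 ?_)
  have hone : Tendsto (fun τ => ‖(ModularForm.E₄ : ℍ → ℂ) τ‖) atImInfty (𝓝 1) := by
    have := isLevelOne_E₄.isQ.tendsto_coeff_zero
    rw [show (qExp (ModularForm.E₄ : ℍ → ℂ)).coeff 0 = 1 from
      E_qExpansion_coeff_zero _ ⟨2, rfl⟩] at this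
    simpa using this.norm
  have hdiag : Tendsto (fun τ : ℍ => ModularForm.heckeDiagMatrix N • τ) atImInfty atImInfty := by
    rw [atImInfty, tendsto_comap_iff]
    have hN : (0 : ℝ) < N := Nat.cast_pos.2 (NeZero.pos N)
    refine ((tendsto_comap (f := UpperHalfPlane.im) (x := atTop)).const_mul_atTop hN).congr
      fun τ => ?_
    simpa using (congrArg Complex.im
      (ModularForm.coe_heckeDiagMatrix_smul (NeZero.ne N) τ)).symm
  have a := (hone.comp H.tendsto_mat_smul).eventually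
    (eventually_lt_nhds (show (1 : ℝ) < 3 / 2 by norm_num))
  have b := (hone.comp hdiag).eventually (eventually_gt_nhds (show (1 / 2 : ℝ) < 1 by norm_num))
  filter_upwards [a, b] with τ ha hb
  have e := congrFun h τ
  rw [jN_slash_apply H, jN_eq_div, jFun_eq] at e
  simp only [Function.comp_apply] at ha hb
  have hd := ModularForm.discriminant_ne_zero (H.mat • τ)
  have hd' : deltaN N τ ≠ 0 := ModularForm.discriminant_ne_zero _
  rw [div_eq_div_iff hd hd'] at e
  have e' := congrArg norm e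
  simp only [norm_mul, norm_pow] at e'
  -- `(1/2)^3 ‖Δ(Hτ)‖ ≤ (3/2)^3 ‖Δ(Nτ)‖`
  have hb3 : (1 / 2 : ℝ) ^ 3 ≤ ‖lift N (ModularForm.E₄ : ℍ → ℂ) τ‖ ^ 3 :=
    pow_le_pow_left₀ (by norm_num) hb.le 3
  have ha3 : ‖(ModularForm.E₄ : ℍ → ℂ) (H.mat • τ)‖ ^ 3 ≤ (3 / 2 : ℝ) ^ 3 :=
    pow_le_pow_left₀ (norm_nonneg _) ha.le 3
  have l1 := mul_le_mul_of_nonneg_right hb3 (norm_nonneg (Δ (H.mat • τ)))
  have l2 := mul_le_mul_of_nonneg_right ha3 (norm_nonneg (deltaN N τ))
  linarith

omit [NeZero N] in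
lemma conj_jNForm (q : Coset N) (τ : ℍ) :
    conj ((N : ℤ) * 12) (jNForm N) q τ = Δ τ ^ N * conj 0 (jN N) q τ :=
  jNForm_slash_apply _ τ

/-- The conjugates of `j(Nτ)` are pairwise distinct. -/
theorem conj_jN_injective : Function.Injective (conj (N := N) 0 (jN N)) := by
  intro a b hab
  rw [← QuotientGroup.out_eq' a, ← QuotientGroup.out_eq' b, QuotientGroup.eq]
  apply mem_Gamma0_of_jN_slash
  have h2 := congrArg (fun F : ℍ → ℂ => F ∣[(0 : ℤ)] b.out) hab
  simp only [conj, ← SlashAction.slash_mul, inv_mul_cancel, SlashAction.slash_one] at h2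
  exact h2

theorem conj_jNForm_injective :
    Function.Injective (conj (N := N) ((N : ℤ) * 12) (jNForm N)) := by
  intro a b hab
  apply conj_jN_injective
  funext τ
  have h := congrFun hab τ
  rw [conj_jNForm, conj_jNForm] at h
  exact mul_left_cancel₀ (pow_ne_zero _ (ModularForm.discriminant_ne_zero τ)) h

/-- Evaluation of a polynomial in two variables at `(j, j(Nτ))`. -/
def evalJ (N : ℕ) (A : Polynomial (Polynomial ℂ)) (τ : ℍ) : ℂ :=
  A.eval₂ (Polynomial.evalRingHom (LevelOne.jFun τ)) (jN N τ)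

omit [NeZero N] in
lemma evalJ_eq (A : Polynomial (Polynomial ℂ)) (τ : ℍ) :
    evalJ N A τ = (A.map (Polynomial.evalRingHom (LevelOne.jFun τ))).eval (jN N τ) :=
  (Polynomial.eval_map _ _).symm

lemma mdiff_evalJ (A : Polynomial (Polynomial ℂ)) : MDiff (evalJ N A) := by
  have e : evalJ N A = ∑ i ∈ A.support,
      (fun τ => (A.coeff i).eval (LevelOne.jFun τ)) * jN N ^ i := by
    funext τ
    simp [evalJ, Polynomial.eval₂_eq_sum, Polynomial.sum_def]
  rw [e]
  refine mdiff_sum _ fun i _ => MDifferentiable.mul ?_ (jN_mdiff.pow i)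
  have e2 : (fun τ => (A.coeff i).eval (LevelOne.jFun τ)) =
      ∑ l ∈ (A.coeff i).support, ((A.coeff i).coeff l) • LevelOne.jFun ^ l := by
    funext τ
    simp [Polynomial.eval_eq_sum, Polynomial.sum_def]
  rw [e2]
  exact mdiff_sum _ fun l _ => (LevelOne.mdifferentiable_jFun.pow l).const_smul _

/-- `F·Φ'(G)` is `Δ^U` times a polynomial in `j` and `j(Nτ)` for forms of weight `12u`. -/
theorem exists_poly_form (u : ℕ) {F : ℍ → ℂ} (hF : IsForm N (12 * (u : ℤ)) F) :
    ∃ A : Polynomial (Polynomial ℂ), ∀ τ,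
      F τ * conjDiffProd N ((N : ℤ) * 12) (jNForm N) τ =
        Δ τ ^ (u + N * (Fintype.card (Coset N) - 1)) * evalJ N A τ := by
  set n := Fintype.card (Coset N) with hn
  have hl : ∀ m : ℕ, IsLevelOne (12 * ((u + N * m : ℕ) : ℤ))
      (interpConj N (12 * (u : ℤ)) ((N : ℤ) * 12) F (jNForm N) m) := by
    intro m
    have := interpConj_levelOne hF jNForm_isForm m
    rwa [show (12 * (u : ℤ) + (m : ℤ) * ((N : ℤ) * 12)) = 12 * ((u + N * m : ℕ) : ℤ) by
      push_cast; ring] at this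
  choose P hP using fun m => exists_poly_levelOne (u + N * m) (hl m)
  refine ⟨∑ m ∈ Finset.range n,
    Polynomial.C ((-1) ^ m * P m) * Polynomial.X ^ (n - 1 - m), fun τ => ?_⟩
  have h := congrFun (interpConj_eval (k := 12 * (u : ℤ)) hF.slash jNForm_isForm.slash) τ
  simp only [Pi.mul_apply] at h
  rw [← h, Finset.sum_apply, evalJ, Polynomial.eval₂_finsetSum, Finset.mul_sum]
  refine Finset.sum_congr rfl fun m hm => ?_
  have hm' : m ≤ n - 1 := by have := Finset.mem_range.1 hm; omega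
  rw [Pi.mul_apply, Pi.mul_apply, hP]
  simp only [← hn, Pi.mul_apply, Pi.pow_apply, Pi.neg_apply, Pi.one_apply, Polynomial.eval₂_mul,
    Polynomial.eval₂_C, Polynomial.eval₂_X_pow, Polynomial.coe_evalRingHom, Polynomial.eval_mul,
    Polynomial.eval_pow, Polynomial.eval_neg, Polynomial.eval_one, jNForm, mul_pow, ← pow_mul]
  rw [show u + N * (n - 1) = (u + N * m) + N * (n - 1 - m) by
    rw [add_assoc, ← mul_add]; congr 2; omega, pow_add]
  ring

/-- **Generation**: every quotient of forms of equal weight is a rational function of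
`j` and `j(Nτ)`. -/
theorem exists_ratio_eq_evalJ {k : ℤ} {f g : ℍ → ℂ} (hf : IsForm N k f) (hg : IsForm N k g)
    (hg0 : g ≠ 0) :
    ∃ A B : Polynomial (Polynomial ℂ), evalJ N B ≠ 0 ∧
      ∀ τ, f τ * evalJ N B τ = g τ * evalJ N A τ := by
  have hk : 0 ≤ k := by
    by_contra hk
    push Not at hk
    exact hg0 (congrArg (fun F : ModularForm (Gamma0 N) k => (F : ℍ → ℂ))
      (ModularForm.isZero_of_neg_weight hk hg.toModularForm))
  lift k to ℕ using hk
  have hw : ((11 : ℕ) : ℤ) * (k : ℤ) + (k : ℤ) = 12 * (k : ℤ) := by ring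
  have h1 : IsForm N (12 * (k : ℤ)) (g ^ 11 * f) := by rw [← hw]; exact (hg.pow 11).mul hf
  have h2 : IsForm N (12 * (k : ℤ)) (g ^ 11 * g) := by rw [← hw]; exact (hg.pow 11).mul hg
  obtain ⟨A, hA⟩ := exists_poly_form k h1
  obtain ⟨B, hB⟩ := exists_poly_form k h2
  have hgg : g ^ 11 * g ≠ 0 := by
    rw [← pow_succ]
    exact pow_ne_zero _ hg0
  have hD := conjDiffProd_ne_zero jNForm_isForm (conj_jNForm_injective (N := N))
  have hDm : MDiff (conjDiffProd N ((N : ℤ) * 12) (jNForm N)) :=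
    mdiff_prod _ fun q _ => jNForm_isForm.holo.sub (mdiff_conj jNForm_isForm q)
  have hgD : (g ^ 11 * g) * conjDiffProd N ((N : ℤ) * 12) (jNForm N) ≠ 0 := by
    rw [Ne, UpperHalfPlane.mul_eq_zero_iff h2.holo hDm]
    exact not_or.2 ⟨hgg, hD⟩
  refine ⟨A, B, fun h => hgD (funext fun τ => ?_), ?_⟩
  · simp only [Pi.mul_apply, Pi.zero_apply] at hB ⊢
    rw [hB, congrFun h τ]
    simp
  · have key : (f * evalJ N B - g * evalJ N A) * (g ^ 11 * conjDiffProd N ((N : ℤ) * 12) (jNForm N))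
        = 0 := by
      funext τ
      have a := hA τ
      have b := hB τ
      simp only [Pi.mul_apply, Pi.sub_apply, Pi.zero_apply, Pi.pow_apply] at a b ⊢
      linear_combination (evalJ N B τ) * a - (evalJ N A τ) * b
    have hgm : MDiff (g ^ 11 * conjDiffProd N ((N : ℤ) * 12) (jNForm N)) :=
      (hg.holo.pow 11).mul hDm
    have hne : g ^ 11 * conjDiffProd N ((N : ℤ) * 12) (jNForm N) ≠ 0 := fun h =>
      hgD (by rw [mul_right_comm, h, zero_mul])
    have := ((UpperHalfPlane.mul_eq_zero_iff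
      ((hf.holo.mul (mdiff_evalJ B)).sub (hg.holo.mul (mdiff_evalJ A))) hgm).1
      key).resolve_right hne
    intro τ
    have := congrFun this τ
    simpa [sub_eq_zero] using this

/-- The modular polynomial: the product over the conjugates of `j(Nτ)`. -/
theorem exists_modularPolynomial :
    ∃ Φ : Polynomial (Polynomial ℂ), Φ.Monic ∧ Φ.natDegree = Fintype.card (Coset N) ∧
      ∀ τ x, (Φ.map (Polynomial.evalRingHom (LevelOne.jFun τ))).eval x =
        ∏ q, (x - conj (N := N) 0 (jN N) q τ) := by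
  set n := Fintype.card (Coset N) with hn
  have hl : ∀ m : ℕ, IsLevelOne (12 * ((N * m : ℕ) : ℤ))
      (esymConj N ((N : ℤ) * 12) (jNForm N) m) := by
    intro m
    have := esymConj_levelOne (jNForm_isForm (N := N)) m
    rwa [show (m : ℤ) * ((N : ℤ) * 12) = 12 * ((N * m : ℕ) : ℤ) by push_cast; ring] at this
  choose P hP using fun m => exists_poly_levelOne (N * m) (hl m)
  have hes : ∀ m τ, esymm Finset.univ (fun q => conj (N := N) 0 (jN N) q τ) m =
      (P m).eval (LevelOne.jFun τ) := by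
    intro m τ
    have h := hP m τ
    have e : esymConj N ((N : ℤ) * 12) (jNForm N) m τ =
        Δ τ ^ (N * m) * esymm Finset.univ (fun q => conj (N := N) 0 (jN N) q τ) m := by
      simp only [esymConj, esymm, Finset.sum_apply, Finset.prod_apply, Finset.mul_sum]
      refine Finset.sum_congr rfl fun t ht => ?_
      simp only [conj_jNForm, Finset.prod_mul_distrib, Finset.prod_const,
        (Finset.mem_powersetCard.1 ht).2, pow_mul]
    rw [e] at h
    exact mul_left_cancel₀ (pow_ne_zero _ (ModularForm.discriminant_ne_zero τ)) h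
  set L : Polynomial (Polynomial ℂ) := ∑ m ∈ Finset.range n,
    Polynomial.C ((-1) ^ (m + 1) * P (m + 1)) * Polynomial.X ^ (n - (m + 1)) with hL
  have hdeg : L.degree < (n : WithBot ℕ) := by
    refine (Polynomial.degree_sum_le _ _).trans_lt ((Finset.sup_lt_iff (WithBot.bot_lt_coe n)).2
      fun m hm => (Polynomial.degree_C_mul_X_pow_le _ _).trans_lt ?_)
    have := Finset.mem_range.1 hm
    exact WithBot.coe_lt_coe.2 (show n - (m + 1) < n by omega)
  refine ⟨Polynomial.X ^ n + L, Polynomial.monic_X_pow_add hdeg, ?_, fun τ x => ?_⟩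
  · apply Polynomial.natDegree_eq_of_degree_eq_some
    rw [Polynomial.degree_add_eq_left_of_degree_lt (by rwa [Polynomial.degree_X_pow]),
      Polynomial.degree_X_pow]
  · rw [prod_sub_eq_sum, Finset.card_univ, Finset.sum_range_succ', ← hn]
    simp only [hL, Polynomial.map_add, Polynomial.map_sum, Polynomial.map_pow, Polynomial.map_mul,
      Polynomial.map_X, Polynomial.map_C, Polynomial.eval_add, Polynomial.eval_finsetSum,
      Polynomial.eval_mul, Polynomial.eval_pow, Polynomial.eval_X, Polynomial.eval_C,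
      Polynomial.coe_evalRingHom, Polynomial.eval_neg, Polynomial.eval_one, hes]
    rw [← hes 0 τ, esymm_zero, Nat.sub_zero]
    ring

end Level

end Fermat.Agent.MFCore
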